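import Mathlib
import Fermat.Agent.Hecke.Lattice

/-!
# Commutative rings of operators preserving a lattice in `V × V`

`V` is a complex vector space with `E : V × V ≃ ℂ^d`, and `ρ : T → End V` is an injective action
of a commutative ring such that each `t × t` is given in coordinates by an integral matrix.
-/

set_option autoImplicit false

noncomputable section

open scoped TensorProduct

namespace Fermat.Agent.GammaH

variable {d : ℕ}

section IntAct

variable (R A : Type*) [Semiring R] [AddCommGroup A] [Module R A]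

/-- Integral matrices act on `A^d`. -/
def intAct : Matrix (Fin d) (Fin d) ℤ →+* Module.End R (Fin d → A) where
  toFun M := LinearMap.pi fun i ↦ ∑ j, M i j • LinearMap.proj j
  map_one' := LinearMap.ext fun a ↦ funext fun i ↦ by
    simp [Matrix.one_apply, ite_smul]
  map_mul' M M' := LinearMap.ext fun a ↦ funext fun i ↦ by
    simp only [LinearMap.pi_apply, LinearMap.coe_sum, Finset.sum_apply, LinearMap.smul_apply,
      LinearMap.proj_apply, Module.End.mul_apply, Matrix.mul_apply, Finset.sum_smul,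
      Finset.smul_sum, mul_smul]
    exact Finset.sum_comm
  map_zero' := LinearMap.ext fun a ↦ funext fun i ↦ by simp
  map_add' M M' := LinearMap.ext fun a ↦ funext fun i ↦ by
    simp [add_smul, Finset.sum_add_distrib]

theorem intAct_apply (M : Matrix (Fin d) (Fin d) ℤ) (a : Fin d → A) (i : Fin d) :
    intAct R A M a i = ∑ j, M i j • a j := by
  simp [intAct]

end IntAct

theorem intAct_complex_single (M : Matrix (Fin d) (Fin d) ℤ) (i j : Fin d) :
    intAct ℂ ℂ M (Pi.single j 1) i = (M i j : ℂ) := by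
  simp [intAct_apply, Pi.single_apply]

theorem intAct_complex_injective :
    Function.Injective (intAct ℂ ℂ : Matrix (Fin d) (Fin d) ℤ →+* _) := fun M M' h ↦
  Matrix.ext fun i j ↦ Int.cast_injective (α := ℂ) <| by
    rw [← intAct_complex_single, ← intAct_complex_single, h]

variable {V : Type*} [AddCommGroup V] [Module ℂ V] (E : (V × V) ≃ₗ[ℂ] (Fin d → ℂ))

/-- `t × t` has integral matrix `M` in the coordinates `E`. -/
def HasMatrix (t : Module.End ℂ V) (M : Matrix (Fin d) (Fin d) ℤ) : Prop :=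
  ∀ p : V × V, E (t p.1, t p.2) = intAct ℂ ℂ M (E p)

variable {E}

theorem HasMatrix.unique {t : Module.End ℂ V} {M M' : Matrix (Fin d) (Fin d) ℤ}
    (h : HasMatrix E t M) (h' : HasMatrix E t M') : M = M' :=
  intAct_complex_injective <| LinearMap.ext fun x ↦ by
    rw [← E.apply_symm_apply x, ← h, ← h']

theorem HasMatrix.mul {s t : Module.End ℂ V} {M M' : Matrix (Fin d) (Fin d) ℤ}
    (h : HasMatrix E s M) (h' : HasMatrix E t M') : HasMatrix E (s * t) (M * M') := fun p ↦ by
  rw [map_mul, Module.End.mul_apply, Module.End.mul_apply, Module.End.mul_apply, ← h' p, ← h]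

theorem HasMatrix.add {s t : Module.End ℂ V} {M M' : Matrix (Fin d) (Fin d) ℤ}
    (h : HasMatrix E s M) (h' : HasMatrix E t M') : HasMatrix E (s + t) (M + M') := fun p ↦ by
  rw [map_add, LinearMap.add_apply, LinearMap.add_apply, LinearMap.add_apply, ← h p, ← h' p,
    ← map_add]
  rfl

variable (E) in
/-- Operators `t` for which `t × t` has an integral matrix. -/
def latticeSubalgebra : Subalgebra ℤ (Module.End ℂ V) where
  carrier := {t | ∃ M, HasMatrix E t M}
  mul_mem' := fun ⟨_, h⟩ ⟨_, h'⟩ ↦ ⟨_, h.mul h'⟩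
  one_mem' := ⟨1, fun p ↦ by simp⟩
  add_mem' := fun ⟨_, h⟩ ⟨_, h'⟩ ↦ ⟨_, h.add h'⟩
  zero_mem' := ⟨0, fun p ↦ by simp⟩
  algebraMap_mem' n := ⟨(n : Matrix (Fin d) (Fin d) ℤ), fun p ↦ by
    rw [map_intCast]
    simp [← Int.cast_smul_eq_zsmul ℂ]
    exact map_smul E (n : ℂ) p⟩

section Ring

variable {T : Type*} [CommRing T] {ρ : T →+* Module.End ℂ V}
  (hmat : ∀ t, ρ t ∈ latticeSubalgebra E)

/-- The integral matrix of a ring element. -/
def latticeHom : T →+* Matrix (Fin d) (Fin d) ℤ where
  toFun t := (hmat t).choose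
  map_one' := (hmat 1).choose_spec.unique (fun p ↦ by simp)
  map_mul' s t := (hmat (s * t)).choose_spec.unique (by
    rw [map_mul]; exact (hmat s).choose_spec.mul (hmat t).choose_spec)
  map_zero' := (hmat 0).choose_spec.unique (fun p ↦ by simp)
  map_add' s t := (hmat (s + t)).choose_spec.unique (by
    rw [map_add]; exact (hmat s).choose_spec.add (hmat t).choose_spec)

theorem hasMatrix_latticeHom (t : T) : HasMatrix E (ρ t) (latticeHom hmat t) :=
  (hmat t).choose_spec

theorem latticeHom_eq {t : T} {M : Matrix (Fin d) (Fin d) ℤ} (h : HasMatrix E (ρ t) M) :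
    latticeHom hmat t = M :=
  (hasMatrix_latticeHom hmat t).unique h

variable (hρ : Function.Injective ρ)

include hρ in
theorem latticeHom_injective : Function.Injective (latticeHom hmat) := by
  rw [injective_iff_map_eq_zero]
  intro t ht
  refine hρ (LinearMap.ext fun v ↦ ?_)
  have := hasMatrix_latticeHom hmat t (v, 0)
  rw [ht, map_zero (intAct ℂ ℂ), LinearMap.zero_apply, LinearEquiv.map_eq_zero_iff,
    Prod.mk_eq_zero] at this
  simpa using this.1

include hmat hρ in
theorem moduleFinite_of_lattice : Module.Finite ℤ T :=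
  Module.Finite.of_injective ((latticeHom hmat).toAddMonoidHom.toIntLinearMap)
    (latticeHom_injective hmat hρ)

include hmat hρ in
theorem moduleFree_of_lattice : Module.Free ℤ T :=
  have := moduleFinite_of_lattice hmat hρ
  have : IsAddTorsionFree T :=
    Function.Injective.isAddTorsionFree
      ({ toFun := fun t i j ↦ latticeHom hmat t i j
         map_zero' := by funext i j; simp
         map_add' := fun x y ↦ by funext i j; simp } : T →+ (Fin d → Fin d → ℤ))
      fun s t h ↦ latticeHom_injective hmat hρ (Matrix.ext fun i j ↦ congrFun (congrFun h i) j)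
  Module.free_of_finite_type_torsion_free'

variable (ρ) in
/-- The action of `ℂ ⊗ T`. -/
def complexAct : (ℂ ⊗[ℤ] T) →ₐ[ℂ] Module.End ℂ V :=
  Algebra.TensorProduct.lift (Algebra.ofId ℂ _) ρ.toIntAlgHom
    fun c t => Algebra.commute_algebraMap_left c (ρ t)

theorem complexAct_tmul (c : ℂ) (t : T) (v : V) : complexAct ρ (c ⊗ₜ t) v = c • ρ t v := by
  show (algebraMap ℂ (Module.End ℂ V) c * ρ t) v = _
  rw [Module.End.mul_apply, Module.algebraMap_end_apply]

include hmat hρ in
/-- A `ℤ`-basis of `T` stays independent over `ℂ` in `End V`. -/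
theorem linearIndependent_of_lattice {ι : Type*} (b : ι → T) (hb : LinearIndependent ℤ b) :
    LinearIndependent ℂ fun i ↦ ρ (b i) := by
  let Φ : Module.End ℂ V →ₗ[ℂ] (Fin d × Fin d → ℂ) :=
    { toFun := fun f p ↦ E (f (E.symm (Pi.single p.2 1)).1, f (E.symm (Pi.single p.2 1)).2) p.1
      map_add' := fun f g ↦ funext fun p ↦ by
        simp only [LinearMap.add_apply, Pi.add_apply, ← Prod.mk_add_mk, map_add]
      map_smul' := fun c f ↦ funext fun p ↦ by
        simp only [LinearMap.smul_apply, Pi.smul_apply, RingHom.id_apply, ← Prod.smul_mk,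
          map_smul] }
  refine Hecke.linearIndependent_of_int_vectors Φ _
    (fun i p ↦ latticeHom hmat (b i) p.1 p.2) (fun i p ↦ ?_) ?_
  · show E (_, _) p.1 = _
    rw [hasMatrix_latticeHom hmat (b i), LinearEquiv.apply_symm_apply, intAct_complex_single]
  · exact hb.map' (M' := Fin d × Fin d → ℤ)
      { toFun := fun t p ↦ latticeHom hmat t p.1 p.2
        map_add' := fun s t ↦ funext fun p ↦ by simp
        map_smul' := fun c s ↦ funext fun p ↦ by
          show latticeHom hmat (c • s) p.1 p.2 = c • latticeHom hmat s p.1 p.2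
          rw [map_zsmul]
          rfl }
      (LinearMap.ker_eq_bot.mpr fun s t h ↦ latticeHom_injective hmat hρ
        (Matrix.ext fun i j ↦ congrFun h (i, j)))

include hmat hρ in
theorem complexAct_injective : Function.Injective (complexAct ρ) := by
  have := moduleFinite_of_lattice hmat hρ
  have := moduleFree_of_lattice hmat hρ
  set b := Module.Free.chooseBasis ℤ T
  set B := Algebra.TensorProduct.basis ℂ b with hB
  have hBb : ∀ j, complexAct ρ (B j) = ρ (b j) := fun j => LinearMap.ext fun f => by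
    rw [hB, Algebra.TensorProduct.basis_apply, complexAct_tmul, one_smul]
  rw [injective_iff_map_eq_zero]
  intro x hx
  rw [← B.sum_repr x, map_sum] at hx
  simp only [map_smul, hBb] at hx
  have h0 := Fintype.linearIndependent_iff.1
    (linearIndependent_of_lattice hmat hρ b b.linearIndependent) _ hx
  rw [← B.sum_repr x]
  exact Finset.sum_eq_zero fun j _ => by rw [h0 j, zero_smul]

include hmat hρ in
/-- Every ring homomorphism `T → ℂ` is the character of an eigenvector. -/
theorem exists_eigenvector_of_lattice (χ : T →+* ℂ) :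
    ∃ v : V, v ≠ 0 ∧ ∀ t, ρ t v = χ t • v := by
  have := moduleFinite_of_lattice hmat hρ
  have : IsArtinianRing (ℂ ⊗[ℤ] T) := IsArtinianRing.of_finite ℂ _
  have : IsNoetherianRing (ℂ ⊗[ℤ] T) := IsNoetherianRing.of_finite ℂ _
  let χ' : (ℂ ⊗[ℤ] T) →ₐ[ℂ] ℂ :=
    Algebra.TensorProduct.lift (AlgHom.id ℂ ℂ) χ.toIntAlgHom fun _ _ => Commute.all _ _
  set M := RingHom.ker χ' with hM
  have : M.IsPrime := RingHom.ker_isPrime _
  have hass : M ∈ associatedPrimes (ℂ ⊗[ℤ] T) (ℂ ⊗[ℤ] T) :=
    Module.associatedPrimes.minimalPrimes_annihilator_subset_associatedPrimes _ _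
      ⟨⟨inferInstance, by rw [Module.annihilator_eq_bot.2 inferInstance]; exact bot_le⟩,
        fun q hq hle => by
          have := hq.1
          exact ((IsArtinianRing.isMaximal_of_isPrime q).eq_of_le
            (Ideal.IsPrime.ne_top inferInstance) hle).ge⟩
  obtain ⟨-, x, hx⟩ := isAssociatedPrime_iff.1 hass
  have hx0 : complexAct ρ x ≠ 0 := by
    rw [Ne, map_eq_zero_iff _ (complexAct_injective hmat hρ)]
    rintro rfl
    exact Ideal.IsPrime.ne_top inferInstance (hx.trans (by simp))
  obtain ⟨f, hf⟩ : ∃ f, complexAct ρ x f ≠ 0 := by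
    by_contra h
    exact hx0 (LinearMap.ext fun f => not_not.1 (not_exists.1 h f))
  refine ⟨_, hf, fun t => ?_⟩
  set m := (1 : ℂ) ⊗ₜ[ℤ] t - χ t ⊗ₜ[ℤ] (1 : T) with hm
  have hmM : m ∈ M := by
    rw [hM, RingHom.mem_ker, hm, map_sub]
    simp only [χ', Algebra.TensorProduct.lift_tmul, map_one]
    simp
  rw [hx, Submodule.mem_colon_singleton, Submodule.mem_bot, smul_eq_mul] at hmM
  have h := congrArg (fun y => complexAct ρ y f) hmM
  simp only [map_mul, map_zero, Module.End.mul_apply, LinearMap.zero_apply, hm, map_sub,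
    LinearMap.sub_apply, complexAct_tmul, one_smul, map_one, Module.End.one_apply] at h
  exact sub_eq_zero.1 h

open scoped IsMulCommutative in
/-- A nonzero space of common eigenvectors stable under `T` carries a character. -/
theorem exists_character_extending [FiniteDimensional ℂ V] {T' : Type*} [CommRing T']
    (j : T' →+* T) (χ' : T' →+* ℂ) {v : V} (hv0 : v ≠ 0) (hv : ∀ t, ρ (j t) v = χ' t • v) :
    ∃ χ : T →+* ℂ, χ.comp j = χ' := by
  let W : Submodule ℂ V := ⨅ t, Module.End.eigenspace (ρ (j t)) (χ' t)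
  have hW : ∀ s, ∀ w ∈ W, ρ s w ∈ W := by
    intro s w hw
    simp only [W, Submodule.mem_iInf, Module.End.mem_eigenspace_iff] at hw ⊢
    intro t
    rw [← Module.End.mul_apply, ← map_mul, mul_comm, map_mul, Module.End.mul_apply, hw t, map_smul]
  let res : T →ₐ[ℤ] Module.End ℂ W :=
    RingHom.toIntAlgHom
      { toFun := fun s ↦ (ρ s).restrict (hW s)
        map_one' := LinearMap.ext fun w ↦ Subtype.ext (by simp)
        map_mul' := fun a b ↦ LinearMap.ext fun w ↦ Subtype.ext (by simp)
        map_zero' := LinearMap.ext fun w ↦ Subtype.ext (by simp)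
        map_add' := fun a b ↦ LinearMap.ext fun w ↦ Subtype.ext (by simp) }
  let B : Subalgebra ℂ (Module.End ℂ W) := Algebra.adjoin ℂ (Set.range res)
  have : IsMulCommutative B := Algebra.isMulCommutative_adjoin ℂ (by
    rintro _ ⟨a, rfl⟩ _ ⟨b, rfl⟩
    rw [← map_mul, ← map_mul, mul_comm])
  let _ : CommRing B := inferInstance
  have : Nontrivial W := ⟨⟨⟨v, by
    simp only [W, Submodule.mem_iInf, Module.End.mem_eigenspace_iff]
    exact hv⟩, 0, fun h ↦ hv0 (congrArg Subtype.val h)⟩⟩
  have : Nontrivial B := ⟨⟨0, 1, fun h ↦ zero_ne_one (congrArg Subtype.val h)⟩⟩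
  obtain ⟨M, hM⟩ := Ideal.exists_maximal B
  let := Ideal.Quotient.field M
  let e : ℂ ≃ₐ[ℂ] B ⧸ M :=
    AlgEquiv.ofBijective (Algebra.ofId ℂ _) IsAlgClosed.algebraMap_bijective_of_isIntegral
  let toB : T →+* B := res.toRingHom.codRestrict B fun a ↦ Algebra.subset_adjoin ⟨a, rfl⟩
  refine ⟨e.symm.toRingEquiv.toRingHom.comp ((Ideal.Quotient.mk M).comp toB),
    RingHom.ext fun t ↦ ?_⟩
  have ht : toB (j t) = algebraMap ℂ B (χ' t) := by
    refine Subtype.ext (LinearMap.ext fun w ↦ Subtype.ext ?_)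
    show ρ (j t) (w : V) = χ' t • (w : V)
    have hw := w.2
    simp only [W, Submodule.mem_iInf, Module.End.mem_eigenspace_iff] at hw
    exact hw t
  show e.symm (Ideal.Quotient.mk M (toB (j t))) = _
  rw [ht, Ideal.Quotient.mk_algebraMap, AlgEquiv.commutes]
  rfl

include hmat hρ in
/-- Every prime of `T` contains the kernel of a homomorphism to `ℂ`. -/
theorem exists_ringHom_ker_le_of_lattice (P : Ideal T) [P.IsPrime] :
    ∃ χ : T →+* ℂ, RingHom.ker χ ≤ P := by
  have := moduleFinite_of_lattice hmat hρ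
  have : IsArtinianRing (ℂ ⊗[ℤ] T) := IsArtinianRing.of_finite ℂ _
  let j : T →+* (ℂ ⊗[ℤ] T) := (Algebra.TensorProduct.includeRight : T →ₐ[ℤ] _).toRingHom
  have hj : Function.Injective j := fun s t h => hρ (LinearMap.ext fun f => by
    have h' := congrArg (fun y => complexAct ρ y f) h
    simpa [j, complexAct_tmul] using h')
  obtain ⟨q, hq, hqP⟩ := Ideal.exists_minimalPrimes_le (J := P) (I := ⊥) bot_le
  obtain ⟨M, hM, hMq⟩ := Ideal.exists_comap_eq_of_mem_minimalPrimes_of_injective hj q hq
  have : M.IsMaximal := IsArtinianRing.isMaximal_of_isPrime M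
  let := Ideal.Quotient.field M
  let e : ℂ ≃ₐ[ℂ] (ℂ ⊗[ℤ] T) ⧸ M :=
    AlgEquiv.ofBijective (Algebra.ofId ℂ _) IsAlgClosed.algebraMap_bijective_of_isIntegral
  refine ⟨e.symm.toRingEquiv.toRingHom.comp ((Ideal.Quotient.mk M).comp j), fun t ht => hqP ?_⟩
  rw [← hMq, Ideal.mem_comap, ← Ideal.Quotient.eq_zero_iff_mem]
  rw [RingHom.mem_ker, RingHom.comp_apply, RingHom.comp_apply] at ht
  exact e.symm.toRingEquiv.injective (ht.trans (map_zero _).symm)

/-! ### Duality through a separating functional -/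

variable (a₁ : Module.Dual ℂ V) (hsep : ∀ v, (∀ t, a₁ (ρ t v) = 0) → v = 0)

include hmat hρ hsep in
/-- Forms correspond to additive functionals on `T`. -/
theorem exists_unique_of_addHom [FiniteDimensional ℂ V] (φ : T →+ ℂ) :
    ∃! v, ∀ t, a₁ (ρ t v) = φ t := by
  have := moduleFinite_of_lattice hmat hρ
  have := moduleFree_of_lattice hmat hρ
  set b := Module.Free.chooseBasis ℤ T
  let Φ : V →ₗ[ℂ] (Module.Free.ChooseBasisIndex ℤ T → ℂ) := LinearMap.pi fun i ↦ a₁ ∘ₗ ρ (b i)
  have key : ∀ v, ∀ ψ : T →+ ℂ, (∀ i, Φ v i = ψ (b i)) → ∀ t, a₁ (ρ t v) = ψ t := by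
    intro v ψ h t
    let L : T →+ ℂ :=
      { toFun := fun t ↦ a₁ (ρ t v)
        map_zero' := by simp
        map_add' := fun x y ↦ by simp }
    have : L.toIntLinearMap = ψ.toIntLinearMap := b.ext fun i ↦ h i
    exact DFunLike.congr_fun this t
  have hΦ : Function.Injective Φ := by
    rw [injective_iff_map_eq_zero]
    intro v hv
    refine hsep v fun t ↦ key v 0 (fun i ↦ ?_) t
    rw [hv]
    rfl
  let Ψ : (Module.Free.ChooseBasisIndex ℤ T → ℂ) →ₗ[ℂ] Module.Dual ℂ V :=
    { toFun := fun c ↦ a₁ ∘ₗ ∑ i, c i • ρ (b i)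
      map_add' := fun c c' ↦ by simp [add_smul, Finset.sum_add_distrib, LinearMap.comp_add]
      map_smul' := fun r c ↦ LinearMap.ext fun v ↦ by
        simp [LinearMap.coe_sum, Finset.sum_apply, Finset.mul_sum, mul_assoc] }
  have hΨ : Function.Injective Ψ := by
    rw [injective_iff_map_eq_zero]
    intro c hc
    have hz : ∑ i, c i • ρ (b i) = 0 := by
      refine LinearMap.ext fun v ↦ hsep _ fun t ↦ ?_
      have hcomm : ρ t ((∑ i, c i • ρ (b i)) v) = (∑ i, c i • ρ (b i)) (ρ t v) := by
        simp only [LinearMap.coe_sum, Finset.sum_apply, LinearMap.smul_apply, map_sum, map_smul]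
        refine Finset.sum_congr rfl fun i _ ↦ ?_
        rw [← Module.End.mul_apply, ← map_mul, ← Module.End.mul_apply, ← map_mul, mul_comm]
      rw [hcomm]
      exact LinearMap.congr_fun hc (ρ t v)
    exact funext (Fintype.linearIndependent_iff.1
      (linearIndependent_of_lattice hmat hρ b b.linearIndependent) c hz)
  have h1 := LinearMap.finrank_le_finrank_of_injective hΦ
  have h2 := LinearMap.finrank_le_finrank_of_injective hΨ
  rw [Subspace.dual_finrank_eq] at h2
  obtain ⟨v, hv⟩ := (LinearMap.injective_iff_surjective_of_finrank_eq_finrank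
    (le_antisymm h1 h2)).mp hΦ fun i ↦ φ (b i)
  refine ⟨v, key v φ fun i ↦ congrFun hv i, fun w hw ↦ hΦ (funext fun i ↦ ?_)⟩
  rw [hv]
  exact hw (b i)

include hmat hρ hsep in
/-- The normalised eigenvector of a character. -/
theorem exists_normalised_eigenvector [FiniteDimensional ℂ V] (χ : T →+* ℂ) :
    ∃ v, a₁ v = 1 ∧ (∀ t, ρ t v = χ t • v) ∧ ∀ w, (∀ t, ρ t w = χ t • w) → w = a₁ w • v := by
  obtain ⟨v, hv, -⟩ := exists_unique_of_addHom hmat hρ a₁ hsep χ.toAddMonoidHom
  have h1 : a₁ v = 1 := by simpa using hv 1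
  refine ⟨v, h1, fun t ↦ ?_, fun w hw ↦ ?_⟩
  · refine sub_eq_zero.mp (hsep _ fun s ↦ ?_)
    rw [map_sub, map_sub, map_smul, map_smul, ← Module.End.mul_apply, ← map_mul, hv, hv,
      smul_eq_mul]
    simp [mul_comm]
  · refine sub_eq_zero.mp (hsep _ fun s ↦ ?_)
    rw [map_sub, map_sub, map_smul, map_smul, hw, map_smul, hv, smul_eq_mul, smul_eq_mul]
    simp [mul_comm]

include hmat hρ hsep in
/-- Forms with `a₁(t v) ∈ ℤ` for all `t` span. -/
theorem span_integral_eq_top [FiniteDimensional ℂ V] :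
    Submodule.span ℂ {v | ∀ t, ∃ m : ℤ, a₁ (ρ t v) = m} = ⊤ := by
  classical
  have := moduleFinite_of_lattice hmat hρ
  have := moduleFree_of_lattice hmat hρ
  set b := Module.Free.chooseBasis ℤ T
  have hdual : ∀ i, ∃ v, ∀ t, a₁ (ρ t v) = ((b.repr t i : ℤ) : ℂ) := fun i ↦
    (exists_unique_of_addHom hmat hρ a₁ hsep
      { toFun := fun t ↦ ((b.repr t i : ℤ) : ℂ)
        map_zero' := by simp
        map_add' := fun x y ↦ by simp }).exists
  choose u hu using hdual
  rw [eq_top_iff]
  intro v _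
  have : v = ∑ i, a₁ (ρ (b i) v) • u i := by
    refine sub_eq_zero.mp (hsep _ fun t ↦ ?_)
    rw [map_sub, map_sub, map_sum, map_sum, sub_eq_zero]
    simp only [map_smul, hu, smul_eq_mul]
    let L : T →ₗ[ℤ] ℂ := AddMonoidHom.toIntLinearMap
      { toFun := fun t ↦ a₁ (ρ t v)
        map_zero' := by simp
        map_add' := fun x y ↦ by simp }
    let L' : T →ₗ[ℤ] ℂ := AddMonoidHom.toIntLinearMap
      { toFun := fun t ↦ ∑ i, a₁ (ρ (b i) v) * ((b.repr t i : ℤ) : ℂ)
        map_zero' := by simp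
        map_add' := fun x y ↦ by simp [mul_add, Finset.sum_add_distrib] }
    have hLL : L = L' := b.ext fun j ↦ by
      show a₁ (ρ (b j) v) = ∑ i, a₁ (ρ (b i) v) * ((b.repr (b j) i : ℤ) : ℂ)
      simp [Finsupp.single_apply]
    exact LinearMap.congr_fun hLL t
  rw [this]
  exact Submodule.sum_mem _ fun i _ ↦ Submodule.smul_mem _ _
    (Submodule.subset_span fun t ↦ ⟨_, hu i t⟩)

end Ring

end Fermat.Agent.GammaH
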