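import Fermat.Agent.GammaH.Hecke
import Fermat.Agent.GammaH.LatticeAlgebra

/-!
# The Hecke ring of weight two at level `Γ_H(N)`

The ring generated by diamond and Hecke operators is finite free over `ℤ`; it acts on
`Hom_par,ell(Γ_H(N), A)` for every `A` through integral matrices; duality with forms.
-/

set_option autoImplicit false

noncomputable section

namespace Fermat.Agent.GammaH

open UpperHalfPlane CongruenceSubgroup Fermat.Agent.Periods Fermat.Agent.Cosets
open ModularFormClass (qCoeff)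
open scoped MatrixGroups

variable (N : ℕ) [NeZero N] (H : Subgroup (ZMod N)ˣ)

/-- The rank of `H¹_par,ell(Γ_H(N), ℤ)`. -/
def homRankH : ℕ := homRankOf (GammaH N H)

variable {N H} (hH : (-1 : (ZMod N)ˣ) ∈ H)

/-! ## Coordinates -/

/-- Generators of the integral lattice. -/
def genH : Fin (homRankH N H) → H1 N H ℤ ℤ :=
  (exists_integral_basis_of.{0, 0} (neg_one_mem_GammaH hH)).choose

/-- The value of the `j`-th generator at `γ`. -/
def valH (j : Fin (homRankH N H)) (γ : GammaH N H) : ℤ :=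
  (genH hH j : Additive (GammaH N H) →+ ℤ) (Additive.ofMul γ)

/-- Coordinates: `a ↦ (γ ↦ ∑ j, valH j γ • a j)`. -/
def coordH (R A : Type) [Semiring R] [AddCommGroup A] [Module R A] :
    (Fin (homRankH N H) → A) ≃ₗ[R] H1 N H R A :=
  ((exists_integral_basis_of.{0, 0} (neg_one_mem_GammaH hH)).choose_spec R A).choose

theorem coordH_apply {R A : Type} [Semiring R] [AddCommGroup A] [Module R A]
    (a : Fin (homRankH N H) → A) (γ : GammaH N H) :
    (coordH hH R A a : Additive (GammaH N H) →+ A) (Additive.ofMul γ)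
      = ∑ j, valH hH j γ • a j :=
  ((exists_integral_basis_of.{0, 0} (neg_one_mem_GammaH hH)).choose_spec R A).choose_spec a _

/-- The integral matrix of the transfer along a coset family. -/
def transferMatrix {ι : Type*} [Fintype ι] {α : ι → GL (Fin 2) ℝ}
    (h : IsCosetFamily (GammaH N H) α) :
    Matrix (Fin (homRankH N H)) (Fin (homRankH N H)) ℤ :=
  Matrix.of fun i j ↦ (coordH hH ℤ ℤ).symm (transferPE h ℤ ℤ (genH hH j)) i

theorem sum_valH_cocycle {ι : Type*} [Fintype ι] {α : ι → GL (Fin 2) ℝ}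
    (h : IsCosetFamily (GammaH N H) α) (j : Fin (homRankH N H)) (γ : GammaH N H) :
    ∑ x, valH hH j (h.cocycle γ x) = ∑ i, valH hH i γ * transferMatrix hH h i j := by
  have e := congrArg (fun φ : H1 N H ℤ ℤ ↦ (φ : Additive (GammaH N H) →+ ℤ) (Additive.ofMul γ))
    ((coordH hH ℤ ℤ).apply_symm_apply (transferPE h ℤ ℤ (genH hH j)))
  simp only [coordH_apply, coe_transferPE, IsCosetFamily.transfer_apply, smul_eq_mul] at e
  simpa [transferMatrix, valH] using e.symm

/-- The transfer in coordinates, for every coefficient module. -/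
theorem transferPE_coordH {ι : Type*} [Fintype ι] {α : ι → GL (Fin 2) ℝ}
    (h : IsCosetFamily (GammaH N H) α) {R A : Type} [Semiring R] [AddCommGroup A] [Module R A]
    (a : Fin (homRankH N H) → A) :
    transferPE h R A (coordH hH R A a) = coordH hH R A (intAct R A (transferMatrix hH h) a) := by
  refine Subtype.ext (AddMonoidHom.ext fun γ ↦ ?_)
  obtain ⟨γ, rfl⟩ := Additive.ofMul.surjective γ
  rw [coe_transferPE, IsCosetFamily.transfer_apply, coordH_apply]
  simp only [coordH_apply, intAct_apply, Finset.smul_sum, ← mul_smul]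
  rw [Finset.sum_comm]
  conv_rhs => rw [Finset.sum_comm]
  refine Finset.sum_congr rfl fun j _ ↦ ?_
  rw [← Finset.sum_smul, ← Finset.sum_smul, sum_valH_cocycle]

/-- Period coordinates on `S₂ × S₂`. -/
def periodCoord : (S2 N H × S2 N H) ≃ₗ[ℂ] (Fin (homRankH N H) → ℂ) :=
  (periodIso hH).trans (coordH hH ℂ ℂ).symm

theorem hasMatrix_of_transfer {ι : Type*} [Fintype ι] {α : ι → GL (Fin 2) ℝ}
    (h : IsCosetFamily (GammaH N H) α) (t : Module.End ℂ (S2 N H))
    (ht : ∀ p : S2 N H × S2 N H,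
      periodIso hH (t p.1, t p.2) = transferPE h ℂ ℂ (periodIso hH p)) :
    HasMatrix (periodCoord hH) t (transferMatrix hH h) := fun p ↦ by
  rw [periodCoord, LinearEquiv.trans_apply, LinearEquiv.trans_apply, ht,
    LinearEquiv.symm_apply_eq, ← transferPE_coordH hH h, LinearEquiv.apply_symm_apply]

theorem hasMatrix_diamond (a : (ZMod N)ˣ) :
    HasMatrix (periodCoord hH) (diamond a) (transferMatrix hH (isCosetFamily_diamond a)) :=
  hasMatrix_of_transfer hH _ _ (periodIso_diamond hH a)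

theorem hasMatrix_heckeT {l : ℕ} [NeZero l] (hl : l.Prime) (hlN : ¬ l ∣ N) :
    HasMatrix (periodCoord hH) (heckeT hl hlN) (transferMatrix hH (isCosetFamily_T hl hlN)) :=
  hasMatrix_of_transfer hH _ _ (periodIso_heckeT hH hl hlN)

theorem hasMatrix_heckeU {q : ℕ} [NeZero q] (hqN : q ∣ N) :
    HasMatrix (periodCoord hH) (heckeU hqN) (transferMatrix hH (isCosetFamily_U hqN)) :=
  hasMatrix_of_transfer hH _ _ (periodIso_heckeU hH hqN)

/-! ## The Hecke ring -/

variable (N H) (S : Set ℕ)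

/-- Generators: all diamonds, `T_ℓ` and `U_q` for primes outside `S`. -/
def heckeGens : Set (Module.End ℂ (S2 N H)) :=
  Set.range (diamond (H := H)) ∪
    {t | ∃ (l : ℕ) (hl : l.Prime) (hlN : ¬ l ∣ N), l ∉ S ∧ t = heckeT hl hlN} ∪
    {t | ∃ (q : ℕ) (hqN : q ∣ N), q.Prime ∧ q ∉ S ∧ t = heckeU hqN}

/-- The Hecke ring away from `S`. -/
def heckeRing : Subalgebra ℤ (Module.End ℂ (S2 N H)) := Algebra.adjoin ℤ (heckeGens N H S)

theorem commute_of_mem_heckeGens {s t : Module.End ℂ (S2 N H)} (hs : s ∈ heckeGens N H S)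
    (ht : t ∈ heckeGens N H S) : Commute s t := by
  rcases hs with (⟨a, rfl⟩ | ⟨l, hl, hlN, -, rfl⟩) | ⟨q, hqN, -, -, rfl⟩ <;>
    rcases ht with (⟨b, rfl⟩ | ⟨m, hm, hmN, -, rfl⟩) | ⟨r, hrN, -, -, rfl⟩
  · exact commute_diamond a b
  · exact commute_diamond_heckeT hm hmN a
  · have := neZero_of_dvd_level hrN
    exact commute_diamond_heckeU hrN a
  · exact (commute_diamond_heckeT hl hlN b).symm
  · exact commute_heckeT hl hlN hm hmN
  · exact commute_heckeT_heckeU hl hlN hrN
  · have := neZero_of_dvd_level hqN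
    exact (commute_diamond_heckeU hqN b).symm
  · exact (commute_heckeT_heckeU hm hmN hqN).symm
  · exact commute_heckeU hqN hrN

instance heckeRing_isMulCommutative : IsMulCommutative (heckeRing N H S) :=
  Algebra.isMulCommutative_adjoin ℤ fun _ hs _ ht => commute_of_mem_heckeGens N H S hs ht

open scoped IsMulCommutative in
instance heckeRing_commRing : CommRing (heckeRing N H S) := inferInstance

variable {N H S}

/-- The action on forms. -/
def heckeAct (N : ℕ) [NeZero N] (H : Subgroup (ZMod N)ˣ) (S : Set ℕ) :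
    heckeRing N H S →+* Module.End ℂ (S2 N H) :=
  { toFun := fun t ↦ t.1
    map_one' := rfl
    map_mul' := fun _ _ ↦ rfl
    map_zero' := rfl
    map_add' := fun _ _ ↦ rfl }

@[simp] theorem heckeAct_apply (t : heckeRing N H S) : heckeAct N H S t = t.1 := rfl

theorem heckeAct_injective : Function.Injective (heckeAct N H S) := Subtype.val_injective

/-- `⟨a⟩` in the Hecke ring. -/
def diamondR (a : (ZMod N)ˣ) : heckeRing N H S :=
  ⟨diamond a, Algebra.subset_adjoin (Or.inl (Or.inl ⟨a, rfl⟩))⟩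

/-- `T_ℓ` in the Hecke ring. -/
def heckeTR {l : ℕ} (hl : l.Prime) (hlN : ¬ l ∣ N) (hlS : l ∉ S) : heckeRing N H S :=
  ⟨heckeT hl hlN, Algebra.subset_adjoin (Or.inl (Or.inr ⟨l, hl, hlN, hlS, rfl⟩))⟩

/-- `U_q` in the Hecke ring. -/
def heckeUR {q : ℕ} (hq : q.Prime) (hqN : q ∣ N) (hqS : q ∉ S) : heckeRing N H S :=
  ⟨heckeU hqN, Algebra.subset_adjoin (Or.inr ⟨q, hqN, hq, hqS, rfl⟩)⟩

@[simp] theorem coe_diamondR (a : (ZMod N)ˣ) :
    (diamondR a : heckeRing N H S).1 = diamond a := rfl
@[simp] theorem coe_heckeTR {l : ℕ} (hl : l.Prime) (hlN : ¬ l ∣ N) (hlS : l ∉ S) :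
    (heckeTR hl hlN hlS : heckeRing N H S).1 = heckeT hl hlN := rfl
@[simp] theorem coe_heckeUR {q : ℕ} (hq : q.Prime) (hqN : q ∣ N) (hqS : q ∉ S) :
    (heckeUR hq hqN hqS : heckeRing N H S).1 = heckeU hqN := rfl

theorem heckeRing_mono {S' : Set ℕ} (h : S ⊆ S') : heckeRing N H S' ≤ heckeRing N H S :=
  Algebra.adjoin_mono <| by
    rintro t ((⟨a, rfl⟩ | ⟨l, hl, hlN, hlS, rfl⟩) | ⟨q, hqN, hq, hqS, rfl⟩)
    · exact Or.inl (Or.inl ⟨a, rfl⟩)
    · exact Or.inl (Or.inr ⟨l, hl, hlN, fun x ↦ hlS (h x), rfl⟩)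
    · exact Or.inr ⟨q, hqN, hq, fun x ↦ hqS (h x), rfl⟩

/-- The inclusion of Hecke rings. -/
def heckeIncl {S' : Set ℕ} (h : S ⊆ S') : heckeRing N H S' →+* heckeRing N H S :=
  { toFun := fun t ↦ ⟨t.1, heckeRing_mono h t.2⟩
    map_one' := Subtype.ext rfl
    map_mul' := fun _ _ ↦ Subtype.ext rfl
    map_zero' := Subtype.ext rfl
    map_add' := fun _ _ ↦ Subtype.ext rfl }

@[simp] theorem coe_heckeIncl {S' : Set ℕ} (h : S ⊆ S') (t : heckeRing N H S') :
    (heckeIncl h t).1 = t.1 := Subtype.coe_mk t.1 (heckeRing_mono h t.2)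

include hH in
theorem heckeRing_le_lattice : heckeRing N H S ≤ latticeSubalgebra (periodCoord hH) :=
  Algebra.adjoin_le <| by
    rintro t ((⟨a, rfl⟩ | ⟨l, hl, hlN, -, rfl⟩) | ⟨q, hqN, -, -, rfl⟩)
    · exact ⟨_, hasMatrix_diamond hH a⟩
    · have : NeZero l := ⟨hl.ne_zero⟩
      exact ⟨_, hasMatrix_heckeT hH hl hlN⟩
    · have := neZero_of_dvd_level hqN
      exact ⟨_, hasMatrix_heckeU hH hqN⟩

theorem heckeAct_mem_lattice (t : heckeRing N H S) :
    heckeAct N H S t ∈ latticeSubalgebra (periodCoord hH) :=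
  heckeRing_le_lattice hH t.2

include hH in
/-- **The Hecke ring is finite over `ℤ`.** -/
theorem moduleFinite_heckeRing : Module.Finite ℤ (heckeRing N H S) :=
  moduleFinite_of_lattice (heckeAct_mem_lattice hH) heckeAct_injective

include hH in
/-- **The Hecke ring is free over `ℤ`.** -/
theorem moduleFree_heckeRing : Module.Free ℤ (heckeRing N H S) :=
  moduleFree_of_lattice (heckeAct_mem_lattice hH) heckeAct_injective

include hH in
theorem isIntegral_character {R : Type*} [CommRing R] (χ : heckeRing N H S →+* R)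
    (t : heckeRing N H S) : IsIntegral ℤ (χ t) :=
  haveI := moduleFinite_heckeRing (S := S) hH
  (Algebra.IsIntegral.isIntegral t).map χ.toIntAlgHom

/-- The integral matrices of the Hecke ring. -/
def matrixH : heckeRing N H S →+* Matrix (Fin (homRankH N H)) (Fin (homRankH N H)) ℤ :=
  latticeHom (heckeAct_mem_lattice hH)

theorem matrixH_injective : Function.Injective (matrixH (S := S) hH) :=
  latticeHom_injective _ heckeAct_injective

theorem matrixH_diamond (a : (ZMod N)ˣ) :
    matrixH (S := S) hH (diamondR a) = transferMatrix hH (isCosetFamily_diamond a) :=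
  latticeHom_eq _ (hasMatrix_diamond hH a)

theorem matrixH_heckeT {l : ℕ} [NeZero l] (hl : l.Prime) (hlN : ¬ l ∣ N) (hlS : l ∉ S) :
    matrixH hH (heckeTR hl hlN hlS) = transferMatrix hH (isCosetFamily_T hl hlN) :=
  latticeHom_eq _ (hasMatrix_heckeT hH hl hlN)

theorem matrixH_heckeU {q : ℕ} [NeZero q] (hq : q.Prime) (hqN : q ∣ N) (hqS : q ∉ S) :
    matrixH hH (heckeUR hq hqN hqS) = transferMatrix hH (isCosetFamily_U hqN) :=
  latticeHom_eq _ (hasMatrix_heckeU hH hqN)

/-! ## The action on homomorphisms -/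

section HomAction

variable (R A : Type) [Semiring R] [AddCommGroup A] [Module R A]

/-- The Hecke ring acting on `H¹_par,ell(Γ_H(N), A)`. -/
def homAction : heckeRing N H S →+* Module.End R (H1 N H R A) :=
  ((coordH hH R A).conjRingEquiv.toRingHom.comp (intAct R A)).comp (matrixH hH)

theorem homAction_coordH (t : heckeRing N H S) (a : Fin (homRankH N H) → A) :
    homAction hH R A t (coordH hH R A a) = coordH hH R A (intAct R A (matrixH hH t) a) := by
  simp [homAction, LinearEquiv.conjRingEquiv]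

theorem homAction_eq_transferPE {ι : Type*} [Fintype ι] {α : ι → GL (Fin 2) ℝ}
    (h : IsCosetFamily (GammaH N H) α) {t : heckeRing N H S}
    (ht : matrixH hH t = transferMatrix hH h) : homAction hH R A t = transferPE h R A :=
  LinearMap.ext fun φ ↦ by
    obtain ⟨a, rfl⟩ := (coordH hH R A).surjective φ
    rw [homAction_coordH, ht, transferPE_coordH]

theorem homAction_diamond (a : (ZMod N)ˣ) :
    homAction (S := S) hH R A (diamondR a) = diamondH R A a :=
  homAction_eq_transferPE hH R A _ (matrixH_diamond hH a)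

theorem homAction_heckeT {l : ℕ} (hl : l.Prime) (hlN : ¬ l ∣ N) (hlS : l ∉ S) :
    homAction hH R A (heckeTR hl hlN hlS) = heckeTH R A hl hlN := by
  have : NeZero l := ⟨hl.ne_zero⟩
  exact homAction_eq_transferPE hH R A _ (matrixH_heckeT hH hl hlN hlS)

theorem homAction_heckeU {q : ℕ} (hq : q.Prime) (hqN : q ∣ N) (hqS : q ∉ S) :
    homAction hH R A (heckeUR hq hqN hqS) = heckeUH R A hqN := by
  have := neZero_of_dvd_level hqN
  exact homAction_eq_transferPE hH R A _ (matrixH_heckeU hH hq hqN hqS)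

end HomAction

/-- The period isomorphism intertwines the two actions. -/
theorem periodIso_homAction (t : heckeRing N H S) (p : S2 N H × S2 N H) :
    periodIso hH (t.1 p.1, t.1 p.2) = homAction hH ℂ ℂ t (periodIso hH p) := by
  have e := hasMatrix_latticeHom (heckeAct_mem_lattice (S := S) hH) t p
  change (coordH hH ℂ ℂ).symm (periodIso hH (t.1 p.1, t.1 p.2))
    = intAct ℂ ℂ (matrixH hH t) ((coordH hH ℂ ℂ).symm (periodIso hH p)) at e
  rw [LinearEquiv.symm_apply_eq, ← homAction_coordH, LinearEquiv.apply_symm_apply] at e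
  exact e

/-! ## Characters, eigenforms and duality -/

include hH in
theorem exists_eigenvector (χ : heckeRing N H S →+* ℂ) :
    ∃ f : S2 N H, f ≠ 0 ∧ ∀ t : heckeRing N H S, t.1 f = χ t • f :=
  exists_eigenvector_of_lattice (heckeAct_mem_lattice hH) heckeAct_injective χ

include hH in
theorem exists_ringHom_ker_le (P : Ideal (heckeRing N H S)) [P.IsPrime] :
    ∃ χ : heckeRing N H S →+* ℂ, RingHom.ker χ ≤ P :=
  exists_ringHom_ker_le_of_lattice (heckeAct_mem_lattice hH) heckeAct_injective P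

include hH in
/-- Characters extend along the inclusion of Hecke rings. -/
theorem exists_extension {S' : Set ℕ} (h : S ⊆ S') (χ : heckeRing N H S' →+* ℂ) :
    ∃ χ' : heckeRing N H S →+* ℂ, χ'.comp (heckeIncl h) = χ := by
  obtain ⟨v, hv0, hv⟩ := exists_eigenvector hH χ
  exact exists_character_extending (ρ := heckeAct N H S) (heckeIncl h) χ hv0 hv

/-- A common eigenvector of the generators gives a character. -/
theorem exists_character_of_eigen {f : S2 N H} (hf : f ≠ 0)
    (hgen : ∀ t ∈ heckeGens N H S, ∃ c : ℂ, t f = c • f) :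
    ∃ χ : heckeRing N H S →+* ℂ, ∀ t : heckeRing N H S, t.1 f = χ t • f := by
  let B : Subalgebra ℤ (Module.End ℂ (S2 N H)) :=
    { carrier := {t | ∃ c : ℂ, t f = c • f}
      mul_mem' := fun {a b} ⟨c, hc⟩ ⟨c', hc'⟩ ↦ ⟨c * c', by
        rw [Module.End.mul_apply, hc', map_smul, hc, smul_smul, mul_comm]⟩
      one_mem' := ⟨1, by simp⟩
      add_mem' := fun {a b} ⟨c, hc⟩ ⟨c', hc'⟩ ↦ ⟨c + c', by
        rw [LinearMap.add_apply, hc, hc', add_smul]⟩
      zero_mem' := ⟨0, by simp⟩
      algebraMap_mem' := fun n ↦ ⟨(n : ℂ), by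
        rw [Algebra.algebraMap_eq_smul_one, LinearMap.smul_apply, Module.End.one_apply]
        exact (Int.cast_smul_eq_zsmul ℂ n f).symm⟩ }
  have hle : heckeRing N H S ≤ B := Algebra.adjoin_le hgen
  choose c hc using fun t : heckeRing N H S ↦ hle t.2
  have huniq : ∀ t : heckeRing N H S, ∀ c' : ℂ, t.1 f = c' • f → c t = c' := fun t c' h ↦
    smul_left_injective ℂ hf ((hc t).symm.trans h)
  exact ⟨{ toFun := c
           map_one' := huniq 1 1 (by simp)
           map_mul' := fun s t ↦ huniq _ _ (by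
            rw [MulMemClass.coe_mul, Module.End.mul_apply, hc t, map_smul, hc s, smul_smul,
              mul_comm])
           map_zero' := huniq 0 0 (by simp)
           map_add' := fun s t ↦ huniq _ _ (by
            rw [AddMemClass.coe_add, LinearMap.add_apply, hc, hc, add_smul]) }, hc⟩

theorem exists_heckeTn (n : ℕ) : ∃ t : heckeRing N H ∅, ∀ f : S2 N H,
    qCoeff ⇑(t.1 f) 1 = qCoeff ⇑f n := by
  induction n using Nat.strong_induction_on with
  | _ n ih =>
    rcases lt_or_ge n 2 with hn | hn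
    · interval_cases n
      · exact ⟨0, fun f => by
          rw [qCoeff_form_zero]
          exact map_zero (qLin 1)⟩
      · exact ⟨1, fun f => by simp⟩
    · obtain ⟨l, hl, m, rfl⟩ : ∃ l, l.Prime ∧ ∃ m, n = m * l :=
        ⟨n.minFac, Nat.minFac_prime (by omega), n / n.minFac,
          (Nat.div_mul_cancel (Nat.minFac_dvd n)).symm⟩
      have hm : 0 < m := Nat.pos_of_ne_zero (by rintro rfl; simp at hn)
      obtain ⟨t₁, ht₁⟩ := ih m (lt_mul_of_one_lt_right hm hl.one_lt)
      by_cases hlN : l ∣ N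
      · refine ⟨t₁ * heckeUR hl hlN (Set.notMem_empty _), fun f => ?_⟩
        rw [MulMemClass.coe_mul, Module.End.mul_apply, coe_heckeUR, ht₁, qCoeff_heckeU]
      · by_cases hdvd : l ∣ m
        · obtain ⟨t₂, ht₂⟩ := ih (m / l)
            (lt_of_le_of_lt (Nat.div_le_self m l) (lt_mul_of_one_lt_right hm hl.one_lt))
          refine ⟨t₁ * heckeTR hl hlN (Set.notMem_empty _)
            - (l : heckeRing N H ∅) * (t₂ * diamondR (primeUnit hl hlN)), fun f => ?_⟩
          have hk : ((l : heckeRing N H ∅) * (t₂ * diamondR (primeUnit hl hlN))).1 f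
              = (l : ℂ) • t₂.1 (diamond (primeUnit hl hlN) f) := by
            simp [← Nat.cast_smul_eq_nsmul ℂ]
          rw [← qLin_apply, AddSubgroupClass.coe_sub, LinearMap.sub_apply, map_sub, hk, map_smul,
            MulMemClass.coe_mul, Module.End.mul_apply, coe_heckeTR, qLin_apply, qLin_apply, ht₁,
            ht₂, qCoeff_heckeT, if_pos hdvd, smul_eq_mul]
          ring
        · refine ⟨t₁ * heckeTR hl hlN (Set.notMem_empty _), fun f => ?_⟩
          rw [MulMemClass.coe_mul, Module.End.mul_apply, coe_heckeTR, ht₁, qCoeff_heckeT,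
            if_neg hdvd, add_zero]

variable (N H) in
/-- `T_n` in the full Hecke ring. -/
def heckeTn (n : ℕ) : heckeRing N H ∅ := (exists_heckeTn (H := H) n).choose

theorem qCoeff_one_heckeTn (n : ℕ) (f : S2 N H) :
    qCoeff ⇑((heckeTn N H n).1 f) 1 = qCoeff ⇑f n :=
  (exists_heckeTn (H := H) n).choose_spec f

theorem separating_qLin (f : S2 N H)
    (h : ∀ t : heckeRing N H ∅, qLin 1 (heckeAct N H ∅ t f) = 0) : f = 0 :=
  form_ext_qCoeff fun n ↦ by
    rw [← qCoeff_one_heckeTn n f]
    exact (h (heckeTn N H n)).trans (map_zero (qLin (H := H) n)).symm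

include hH in
/-- **Duality**: forms are the additive functionals on the Hecke ring. -/
theorem existsUnique_form_of_addHom (φ : heckeRing N H ∅ →+ ℂ) :
    ∃! f : S2 N H, ∀ t : heckeRing N H ∅, qCoeff ⇑(t.1 f) 1 = φ t :=
  exists_unique_of_addHom (heckeAct_mem_lattice hH) heckeAct_injective (qLin 1) separating_qLin φ

include hH in
/-- **Every character has a normalised eigenform**, unique up to scalars. -/
theorem exists_eigenform (χ : heckeRing N H ∅ →+* ℂ) :
    ∃ f : S2 N H, qCoeff ⇑f 1 = 1 ∧ (∀ t : heckeRing N H ∅, t.1 f = χ t • f) ∧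
      (∀ n, qCoeff ⇑f n = χ (heckeTn N H n)) ∧
      ∀ g : S2 N H, (∀ t : heckeRing N H ∅, t.1 g = χ t • g) → g = qCoeff ⇑g 1 • f := by
  obtain ⟨f, h1, hf, hu⟩ := exists_normalised_eigenvector (heckeAct_mem_lattice hH)
    heckeAct_injective (qLin 1) separating_qLin χ
  refine ⟨f, h1, hf, fun n ↦ ?_, hu⟩
  rw [← qCoeff_one_heckeTn n f, ← qLin_apply, ← heckeAct_apply, hf, map_smul, h1, smul_eq_mul,
    mul_one]

/-- Forms with integral Hecke pairing. -/
def intFormsH (N : ℕ) [NeZero N] (H : Subgroup (ZMod N)ˣ) : AddSubgroup (S2 N H) where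
  carrier := {f | ∀ t : heckeRing N H ∅, ∃ m : ℤ, qCoeff ⇑(t.1 f) 1 = m}
  zero_mem' t := ⟨0, by rw [map_zero, ← qLin_apply, map_zero, Int.cast_zero]⟩
  add_mem' {f g} hf hg t := by
    obtain ⟨a, ha⟩ := hf t
    obtain ⟨b, hb⟩ := hg t
    exact ⟨a + b, by rw [map_add, qCoeff_add, ha, hb]; push_cast; ring⟩
  neg_mem' {f} hf t := by
    obtain ⟨a, ha⟩ := hf t
    exact ⟨-a, by rw [map_neg, ← qLin_apply, map_neg, qLin_apply, ha]; push_cast; ring⟩

theorem qCoeff_intFormsH {f : S2 N H} (hf : f ∈ intFormsH N H) (n : ℕ) :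
    ∃ m : ℤ, qCoeff ⇑f n = m := by
  rw [← qCoeff_one_heckeTn n f]
  exact hf _

include hH in
/-- **Integral basis**: forms with integral coefficients span. -/
theorem span_intFormsH : Submodule.span ℂ (intFormsH N H : Set (S2 N H)) = ⊤ :=
  span_integral_eq_top (heckeAct_mem_lattice hH) heckeAct_injective (qLin 1) separating_qLin

include hH in
/-- Automorphisms of `ℂ` act on forms through `q`-coefficients, commuting with the Hecke ring. -/
theorem exists_conjugate_form (σ : ℂ →+* ℂ) (f : S2 N H) :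
    ∃ g : S2 N H, (∀ n, qCoeff ⇑g n = σ (qCoeff ⇑f n)) ∧
      ∀ t : heckeRing N H ∅, ∀ n, qCoeff ⇑(t.1 g) n = σ (qCoeff ⇑(t.1 f) n) := by
  obtain ⟨g, hg, -⟩ := existsUnique_form_of_addHom hH
    (σ.toAddMonoidHom.comp
      { toFun := fun t : heckeRing N H ∅ ↦ qLin 1 (t.1 f)
        map_zero' := by simp
        map_add' := fun s t ↦ by
          rw [AddMemClass.coe_add, LinearMap.add_apply]
          exact map_add (qLin 1) _ _ })
  have key : ∀ t : heckeRing N H ∅, ∀ n, qCoeff ⇑(t.1 g) n = σ (qCoeff ⇑(t.1 f) n) := by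
    intro t n
    rw [← qCoeff_one_heckeTn n, ← qCoeff_one_heckeTn n (t.1 f), ← Module.End.mul_apply,
      ← MulMemClass.coe_mul]
    exact hg _
  exact ⟨g, fun n ↦ by simpa using key 1 n, key⟩

end Fermat.Agent.GammaH
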