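import Fermat.Agent.GammaH.SlashOp
import Fermat.Agent.Periods.HeckeHom
import Fermat.Agent.Newform.Expansion
import Fermat.Prelude.Thm_UpperHalfPlane_qCoeff_heckeU
import Fermat.Prelude.Thm_ModularForm_periodic_heckeU_comp_ofComplex
import Fermat.Prelude.Thm_ModularForm_isBoundedAtImInfty_heckeU
import Fermat.Prelude.Thm_ModularForm_mdifferentiable_heckeU

/-!
# Diamond and Hecke operators at level `Γ_H(N)`

Diamonds, `T_ℓ` and `U_q` on forms and on homomorphisms: they commute, act on `q`-expansions in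
the usual way and are intertwined by the period isomorphism.
-/

set_option autoImplicit false

noncomputable section

namespace Fermat.Agent.GammaH

open UpperHalfPlane CongruenceSubgroup Fermat.Agent.Periods Fermat.Agent.Newform
open ModularCurve.Period (jConjSL jConjMat)
open ModularFormClass (qCoeff)
open ModularForm (heckeMatrix heckeDiagMatrix)
open P2MW.S_ModularForm_heckeT_slash_eq_self_of_mem_Gamma0.ModularForm.HeckeSlashInvariance
  (heckeRep heckeRep_mul heckeMatrix_mul_of_dvd affinePerm redMatrix heckeU_eq_sum_zmod)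
open scoped MatrixGroups ModularForm OnePoint

variable {N : ℕ} [NeZero N] {H : Subgroup (ZMod N)ˣ}

/-! ## Integral matrix identities -/

/-- Lower right entry of a product relation between integral matrices. -/
theorem apply_one_one_of_mul_eq {A B : GL (Fin 2) ℝ} {g g' : SL(2, ℤ)}
    (a b : Matrix (Fin 2) (Fin 2) ℤ)
    (ha : (A : Matrix (Fin 2) (Fin 2) ℝ) = a.map (Int.cast : ℤ → ℝ))
    (hb : (B : Matrix (Fin 2) (Fin 2) ℝ) = b.map (Int.cast : ℤ → ℝ))
    (e : A * toGLR g = toGLR g' * B) :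
    a 1 0 * g 0 1 + a 1 1 * g 1 1 = g' 1 0 * b 0 1 + g' 1 1 * b 1 1 := by
  have h := congrArg (fun x : GL (Fin 2) ℝ ↦ (x : Matrix (Fin 2) (Fin 2) ℝ) 1 1) e
  simp [toGLR, Matrix.mul_apply, Fin.sum_univ_two, ha, hb] at h
  exact_mod_cast h

omit [NeZero N] in
theorem slash_eq_of_unitD_eq [(GammaH N H).FiniteIndex] {k : ℤ}
    (f : CuspForm (GammaH N H : Subgroup (GL (Fin 2) ℝ)) k) (γ δ : Gamma0 N)
    (h : unitD N γ = unitD N δ) :
    (f : ℍ → ℂ) ∣[k] (γ : SL(2, ℤ)) = (f : ℍ → ℂ) ∣[k] (δ : SL(2, ℤ)) := by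
  obtain ⟨g, hg⟩ := eq_mul_of_unitD_eq (H := H) γ δ h
  rw [hg, SlashAction.slash_mul, slash_eq_self f g.2]

omit [NeZero N] in
theorem isPosRational_toGLR {ι : Type*} [Fintype ι] (γ : ι → SL(2, ℤ)) :
    IsPosRational fun i ↦ toGLR (γ i) :=
  ⟨fun i ↦ by simp [toGLR], fun i ↦ ⟨_, (qm_SL (γ i)).symm⟩⟩

omit [NeZero N] in
theorem unitD_jConj (δ : Gamma0 N) :
    unitD N ⟨jConjSL δ, ModularCurve.Period.jConjSL_mem_Gamma0 δ.2⟩ = unitD N δ := by
  ext
  simp [coe_unitD, ModularCurve.Period.jConjSL_coe, jConjMat]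

omit [NeZero N] in
theorem J_mul_toGLR (γ : SL(2, ℤ)) :
    UpperHalfPlane.J * toGLR γ * UpperHalfPlane.J = toGLR (jConjSL γ) := by
  simp only [toGLR, J_mul_eq, mul_assoc, ← sq, J_sq, mul_one]

/-! ## Diamond operators -/

variable (N) in
/-- A chosen matrix in `Γ₀(N)` with given lower right entry. -/
def deltaOf (a : (ZMod N)ˣ) : Gamma0 N := (exists_unitD_eq a).choose

@[simp] theorem unitD_deltaOf (a : (ZMod N)ˣ) : unitD N (deltaOf N a) = a :=
  (exists_unitD_eq a).choose_spec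

theorem isCosetFamily_diamond (a : (ZMod N)ˣ) :
    IsCosetFamily (GammaH N H) (fun _ : Unit ↦ toGLR (deltaOf N a : SL(2, ℤ))) where
  exists_perm γ := ⟨Equiv.refl _, fun _ ↦ ⟨_, conj_mem_GammaH (deltaOf N a).2 γ.2⟩, fun _ ↦ by
    simp only [toGLR, ← map_mul]
    congr 1
    simp⟩
  eq_of_mem _ _ _ _ := rfl

/-- The diamond operator on forms. -/
def diamond (a : (ZMod N)ˣ) : Module.End ℂ (S2 N H) :=
  slashOp (isCosetFamily_diamond a) (isPosRational_toGLR _)

theorem coe_diamond (δ : Gamma0 N) (f : S2 N H) :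
    (diamond (unitD N δ) f : ℍ → ℂ) = (f : ℍ → ℂ) ∣[(2 : ℤ)] (δ : SL(2, ℤ)) := by
  rw [diamond, coe_slashOp, Fintype.sum_unique]
  exact slash_eq_of_unitD_eq f _ _ (unitD_deltaOf _)

theorem coe_diamond' (a : (ZMod N)ˣ) (f : S2 N H) :
    (diamond a f : ℍ → ℂ) = (f : ℍ → ℂ) ∣[(2 : ℤ)] (deltaOf N a : SL(2, ℤ)) := by
  conv_lhs => rw [← unitD_deltaOf a]
  exact coe_diamond _ f

theorem diamond_apply_of_mem {a : (ZMod N)ˣ} (ha : a ∈ H) (f : S2 N H) : diamond a f = f := by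
  refine DFunLike.coe_injective ?_
  rw [coe_diamond']
  exact slash_eq_self f (mem_GammaH_of_unitD _ (by rwa [unitD_deltaOf]))

/-- The diamond operators as a monoid homomorphism. -/
def diamondHom : (ZMod N)ˣ →* Module.End ℂ (S2 N H) where
  toFun := diamond
  map_one' := LinearMap.ext fun f ↦ diamond_apply_of_mem (one_mem H) f
  map_mul' a b := LinearMap.ext fun f ↦ DFunLike.coe_injective <| by
    show (diamond (a * b) f : ℍ → ℂ) = (diamond a (diamond b f) : ℍ → ℂ)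
    rw [coe_diamond' a, coe_diamond' b, ← SlashAction.slash_mul,
      show (deltaOf N b : SL(2, ℤ)) * deltaOf N a =
          ((deltaOf N b * deltaOf N a : Gamma0 N)) from rfl,
      ← coe_diamond (deltaOf N b * deltaOf N a), map_mul, unitD_deltaOf, unitD_deltaOf, mul_comm]

@[simp] theorem diamondHom_apply (a : (ZMod N)ˣ) : diamondHom (H := H) a = diamond a := rfl

theorem commute_diamond (a b : (ZMod N)ˣ) : Commute (diamond (H := H) a) (diamond b) :=
  (Commute.all a b).map diamondHom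

theorem exists_J_diamond (a : (ZMod N)ˣ) (i : Unit) :
    ∃ (_ : Unit) (β : GammaH N H),
      UpperHalfPlane.J * toGLR (deltaOf N a : SL(2, ℤ)) * UpperHalfPlane.J
        = toGLR β * toGLR (deltaOf N a : SL(2, ℤ)) := by
  obtain ⟨g, hg⟩ := eq_mul_of_unitD_eq (H := H)
    ⟨jConjSL (deltaOf N a), ModularCurve.Period.jConjSL_mem_Gamma0 (deltaOf N a).2⟩ _
    (unitD_jConj (deltaOf N a))
  refine ⟨i, g, ?_⟩
  rw [J_mul_toGLR]
  simp only [toGLR, ← map_mul]
  exact congrArg _ hg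

/-! ## `T_ℓ` -/

section T

variable {l : ℕ} (hl : l.Prime) (hlN : ¬ l ∣ N)

/-- `ℓ` as a unit modulo `N`. -/
def primeUnit : (ZMod N)ˣ := ZMod.unitOfCoprime l ((Nat.Prime.coprime_iff_not_dvd hl).mpr hlN)

omit [NeZero N] in
@[simp] theorem coe_primeUnit : (primeUnit hl hlN : ZMod N) = l := rfl

/-- Correction matrices turning Prelude's representatives into those of `Γ₁(N)`. -/
def corrT (x : OnePoint (ZMod l)) : Gamma0 N := x.elim (deltaOf N (primeUnit hl hlN)) fun _ ↦ 1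

/-- Representatives for `T_ℓ`. -/
def repT (x : OnePoint (ZMod l)) : GL (Fin 2) ℝ := toGLR (corrT hl hlN x : SL(2, ℤ)) * heckeRep l x

theorem repT_infty :
    repT hl hlN ∞ = toGLR (deltaOf N (primeUnit hl hlN) : SL(2, ℤ)) * heckeDiagMatrix l := rfl

theorem repT_coe (j : ZMod l) : repT hl hlN j = heckeMatrix l j.val := by
  show toGLR ((1 : Gamma0 N) : SL(2, ℤ)) * heckeMatrix l j.val = _
  simp [toGLR]

theorem exists_int_repT [NeZero l] (x : OnePoint (ZMod l)) :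
    ∃ a : Matrix (Fin 2) (Fin 2) ℤ,
      ((repT hl hlN x : GL (Fin 2) ℝ) : Matrix (Fin 2) (Fin 2) ℝ) = a.map (Int.cast : ℤ → ℝ) ∧
      (a 1 0 : ZMod N) = 0 ∧ (a 1 1 : ZMod N) = l := by
  induction x using OnePoint.rec with
  | infty =>
    set δ : Gamma0 N := deltaOf N (primeUnit hl hlN) with hδ
    refine ⟨!![(δ : SL(2, ℤ)) 0 0 * l, (δ : SL(2, ℤ)) 0 1; (δ : SL(2, ℤ)) 1 0 * l,
      (δ : SL(2, ℤ)) 1 1], ?_, ?_, ?_⟩
    · rw [repT_infty, ← hδ]
      ext i j
      fin_cases i <;> fin_cases j <;>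
        simp [toGLR, Matrix.mul_apply, Fin.sum_univ_two,
          ModularForm.val_heckeDiagMatrix hl.ne_zero]
    · simp [Gamma0_mem.mp δ.2]
    · have h1 := congrArg Units.val (unitD_deltaOf (primeUnit hl hlN))
      rw [coe_unitD, coe_primeUnit, ← hδ] at h1
      simpa using h1
  | coe j =>
    refine ⟨!![1, (j.val : ℤ); 0, (l : ℤ)], ?_, by simp, by simp⟩
    rw [repT_coe]
    ext i k
    fin_cases i <;> fin_cases k <;>
      simp [ModularForm.val_heckeMatrix hl.ne_zero, -ZMod.natCast_val]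

/-- Right multiplication by `Γ₀(N)` permutes the representatives, preserving the lower right
entry modulo `N`. -/
theorem exists_perm_repT (g : Gamma0 N) :
    ∃ (σ : Equiv.Perm (OnePoint (ZMod l))) (g' : OnePoint (ZMod l) → Gamma0 N),
      ∀ x, repT hl hlN x * toGLR (g : SL(2, ℤ)) = toGLR (g' x : SL(2, ℤ)) * repT hl hlN (σ x) ∧
        unitD N (g' x) = unitD N g := by
  have : Fact l.Prime := ⟨hl⟩
  have : NeZero l := ⟨hl.ne_zero⟩
  choose g₀ hg₀ hmul using fun x ↦ heckeRep_mul hlN (g : SL(2, ℤ))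
    ((ZMod.intCast_zmod_eq_zero_iff_dvd _ _).mp (Gamma0_mem.mp g.2)) x
  set σ : Equiv.Perm (OnePoint (ZMod l)) := MulAction.toPerm (redMatrix l (g : SL(2, ℤ)))
  set g' : OnePoint (ZMod l) → Gamma0 N := fun x ↦ corrT hl hlN x
    * ⟨g₀ x, Gamma0_mem.mpr ((ZMod.intCast_zmod_eq_zero_iff_dvd _ _).mpr (hg₀ x))⟩
    * (corrT hl hlN (σ x))⁻¹
  have e : ∀ x, repT hl hlN x * toGLR (g : SL(2, ℤ))
      = toGLR (g' x : SL(2, ℤ)) * repT hl hlN (σ x) := by
    intro x
    simp only [repT, g', toGLR, Subgroup.coe_mul, Subgroup.coe_inv, map_mul, map_inv, mul_assoc]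
    rw [inv_mul_cancel_left, hmul x]
    rfl
  refine ⟨σ, g', fun x ↦ ⟨e x, ?_⟩⟩
  obtain ⟨a, ha, ha0, ha1⟩ := exists_int_repT hl hlN x
  obtain ⟨b, hb, hb0, hb1⟩ := exists_int_repT hl hlN (σ x)
  have h := congrArg (Int.cast : ℤ → ZMod N) (apply_one_one_of_mul_eq a b ha hb (e x))
  push_cast at h
  rw [ha0, ha1, hb1, Gamma0_mem.mp (g' x).2, zero_mul, zero_mul, zero_add, zero_add,
    mul_comm _ (l : ZMod N), ← coe_primeUnit hl hlN] at h
  exact Units.ext ((Units.mul_right_inj _).mp h).symm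

theorem isCosetFamily_T : IsCosetFamily (GammaH N H) (repT hl hlN) where
  exists_perm γ := by
    obtain ⟨σ, g', h⟩ := exists_perm_repT hl hlN ⟨γ, GammaH_le_Gamma0 γ.2⟩
    exact ⟨σ, fun x ↦ ⟨g' x, mem_GammaH_of_unitD _ (by rw [(h x).2]; exact unitD_mem_of_mem γ.2)⟩,
      fun x ↦ (h x).1⟩
  eq_of_mem i j g e := by
    have : Fact l.Prime := ⟨hl⟩
    have : NeZero l := ⟨hl.ne_zero⟩
    refine (isCosetFamily_heckeT (N := N) hlN).eq_of_mem i j
      ((corrT hl hlN i)⁻¹ * ⟨g, GammaH_le_Gamma0 g.2⟩ * corrT hl hlN j) ?_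
    show heckeRep l i = _ * heckeRep l j
    simp only [repT] at e
    simp only [toGLR, Subgroup.coe_mul, Subgroup.coe_inv, map_mul, map_inv, mul_assoc] at e ⊢
    rw [← e, inv_mul_cancel_left]

theorem isPosRational_T [NeZero l] : IsPosRational (repT hl hlN) where
  det_pos x := by
    rw [repT, map_mul, Units.val_mul]
    refine mul_pos (by simp [toGLR]) ?_
    induction x using OnePoint.rec with
    | infty => exact ModularForm.det_heckeDiagMatrix_pos l
    | coe j => exact ModularForm.det_heckeMatrix_pos l j.val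
  rat x := by
    have hl0 : (l : ℚ) ≠ 0 := by exact_mod_cast hl.ne_zero
    obtain ⟨b, hb⟩ : ∃ b : GL (Fin 2) ℚ, rgl b = heckeRep l x := by
      induction x using OnePoint.rec with
      | infty =>
        refine ⟨qgl l 0 0 1, Units.ext ?_⟩
        show ((qm l 0 0 1 : GL (Fin 2) ℝ) : Matrix (Fin 2) (Fin 2) ℝ)
          = ((heckeDiagMatrix l : GL (Fin 2) ℝ) : Matrix (Fin 2) (Fin 2) ℝ)
        rw [val_qm (by simpa using hl0), ModularForm.val_heckeDiagMatrix hl.ne_zero]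
        simp
      | coe j =>
        refine ⟨qgl 1 j.val 0 l, Units.ext ?_⟩
        show ((qm 1 (j.val : ℚ) 0 l : GL (Fin 2) ℝ) : Matrix (Fin 2) (Fin 2) ℝ)
          = ((heckeMatrix l j.val : GL (Fin 2) ℝ) : Matrix (Fin 2) (Fin 2) ℝ)
        rw [val_qm (by simpa using hl0), ModularForm.val_heckeMatrix hl.ne_zero]
        simp [-ZMod.natCast_val]
    obtain ⟨a, ha⟩ := (isPosRational_toGLR (fun _ : Unit ↦ (corrT hl hlN x : SL(2, ℤ)))).rat ()
    exact ⟨a * b, by rw [map_mul, ha, hb]; rfl⟩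

theorem exists_J_T (x : OnePoint (ZMod l)) :
    ∃ (y : OnePoint (ZMod l)) (β : GammaH N H),
      UpperHalfPlane.J * repT hl hlN x * UpperHalfPlane.J = toGLR β * repT hl hlN y := by
  have : NeZero l := ⟨hl.ne_zero⟩
  induction x using OnePoint.rec with
  | infty =>
    obtain ⟨-, g, hg⟩ := exists_J_diamond (H := H) (primeUnit hl hlN) ()
    refine ⟨∞, g, ?_⟩
    have hD : UpperHalfPlane.J * heckeDiagMatrix l * UpperHalfPlane.J = heckeDiagMatrix l := by
      ext i j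
      fin_cases i <;> fin_cases j <;>
        simp [Matrix.mul_apply, Fin.sum_univ_two, ModularForm.val_heckeDiagMatrix hl.ne_zero]
    have hJJ : UpperHalfPlane.J * UpperHalfPlane.J = 1 := by rw [← sq, J_sq]
    rw [repT_infty, ← mul_assoc (toGLR (g : SL(2, ℤ))), ← hg]
    conv_rhs => rw [← hD]
    simp only [mul_assoc]
    rw [← mul_assoc UpperHalfPlane.J UpperHalfPlane.J, hJJ, one_mul]
  | coe j =>
    obtain ⟨m, hm⟩ : (l : ℤ) ∣ -(j.val : ℤ) - ((-j).val : ℤ) := by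
      rw [← ZMod.intCast_zmod_eq_zero_iff_dvd]
      push_cast
      simp
    refine ⟨(↑(-j) : OnePoint (ZMod l)),
      ⟨⟨!![1, m; 0, 1], by rw [Matrix.det_fin_two_of]; ring⟩,
        Gamma1_le_GammaH (by simp [Gamma1_mem])⟩, ?_⟩
    rw [repT_coe, repT_coe]
    have hm' := congrArg (Int.cast : ℤ → ℝ) hm
    push_cast at hm'
    ext i k
    fin_cases i <;> fin_cases k <;>
      simp [toGLR, Matrix.mul_apply, Fin.sum_univ_two, ModularForm.val_heckeMatrix hl.ne_zero,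
        -ZMod.natCast_val]
    linarith

/-- The Hecke operator `T_ℓ`. -/
def heckeT : Module.End ℂ (S2 N H) :=
  haveI : NeZero l := ⟨hl.ne_zero⟩
  slashOp (isCosetFamily_T hl hlN) (isPosRational_T hl hlN)

theorem coe_heckeT [NeZero l] (f : S2 N H) :
    (heckeT hl hlN f : ℍ → ℂ) = ∑ x, (f : ℍ → ℂ) ∣[(2 : ℤ)] repT hl hlN x := rfl

theorem commute_diamond_heckeT (a : (ZMod N)ˣ) :
    Commute (diamond (H := H) a) (heckeT hl hlN) := by
  have : NeZero l := ⟨hl.ne_zero⟩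
  refine LinearMap.ext fun f ↦ DFunLike.coe_injective ?_
  show (diamond a (heckeT hl hlN f) : ℍ → ℂ) = (heckeT hl hlN (diamond a f) : ℍ → ℂ)
  obtain ⟨σ, g', h⟩ := exists_perm_repT hl hlN (deltaOf N a)
  rw [coe_diamond', coe_heckeT, coe_heckeT, ModularForm.SL_slash, SlashAction.sum_slash,
    ← Equiv.sum_comp σ (fun x ↦ (diamond a f : ℍ → ℂ) ∣[(2 : ℤ)] repT hl hlN x)]
  refine Finset.sum_congr rfl fun x _ ↦ ?_
  have hx : unitD N (g' x) = a := by rw [(h x).2, unitD_deltaOf]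
  rw [← SlashAction.slash_mul]
  show (f : ℍ → ℂ) ∣[(2 : ℤ)] (repT hl hlN x * toGLR (deltaOf N a : SL(2, ℤ))) = _
  rw [(h x).1, SlashAction.slash_mul]
  congr 1
  rw [← hx, coe_diamond]
  rfl

end T

/-! ## `U_q` -/

section U

variable {q : ℕ} (hqN : q ∣ N)

include hqN in
theorem neZero_of_dvd_level : NeZero q := ⟨fun h ↦ NeZero.ne N (Nat.eq_zero_of_zero_dvd (h ▸ hqN))⟩

variable [NeZero q]

omit [NeZero N] in
include hqN in
theorem exists_perm_repU (g : Gamma0 N) :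
    ∃ (σ : Equiv.Perm (ZMod q)) (g' : ZMod q → Gamma0 N),
      ∀ x, heckeMatrix q x.val * toGLR (g : SL(2, ℤ))
          = toGLR (g' x : SL(2, ℤ)) * heckeMatrix q (σ x).val ∧
        unitD N (g' x) = unitD N g := by
  have hcN : (N : ℤ) ∣ (g : SL(2, ℤ)) 1 0 :=
    (ZMod.intCast_zmod_eq_zero_iff_dvd _ _).mp (Gamma0_mem.mp g.2)
  have hc : (q : ℤ) ∣ (g : SL(2, ℤ)) 1 0 := (Int.natCast_dvd_natCast.mpr hqN).trans hcN
  choose g₀ hg₀ hmul using fun x ↦ heckeMatrix_mul_of_dvd (g : SL(2, ℤ)) hc x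
  refine ⟨_, fun x ↦ ⟨g₀ x, by rw [Gamma0_mem, hg₀, Int.cast_mul, Gamma0_mem.mp g.2, mul_zero]⟩,
    fun x ↦ ⟨hmul x, ?_⟩⟩
  set x' := affinePerm (g : SL(2, ℤ)) ((ZMod.intCast_zmod_eq_zero_iff_dvd _ _).mpr hc) x
  have hmat : ∀ j : ZMod q,
      ((heckeMatrix q j.val : GL (Fin 2) ℝ) : Matrix (Fin 2) (Fin 2) ℝ)
        = (!![1, (j.val : ℤ); 0, (q : ℤ)]).map (Int.cast : ℤ → ℝ) := by
    intro j
    ext i k
    fin_cases i <;> fin_cases k <;>
      simp [ModularForm.val_heckeMatrix (NeZero.ne q), -ZMod.natCast_val]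
  have h := apply_one_one_of_mul_eq _ _ (hmat x) (hmat x') (hmul x)
  rw [hg₀] at h
  simp [-ZMod.natCast_val] at h
  have h' : (g : SL(2, ℤ)) 1 1 = (g : SL(2, ℤ)) 1 0 * x'.val + g₀ x 1 1 := by
    refine mul_left_cancel₀ (Nat.cast_ne_zero.mpr (NeZero.ne q) : (q : ℤ) ≠ 0) ?_
    linear_combination h
  ext
  simp only [coe_unitD]
  rw [h']
  push_cast
  rw [Gamma0_mem.mp g.2]
  simp

omit [NeZero N] in
include hqN in
theorem isCosetFamily_U : IsCosetFamily (GammaH N H) (fun x : ZMod q ↦ heckeMatrix q x.val) where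
  exists_perm γ := by
    obtain ⟨σ, g', h⟩ := exists_perm_repU hqN ⟨γ, GammaH_le_Gamma0 γ.2⟩
    exact ⟨σ, fun x ↦ ⟨g' x, mem_GammaH_of_unitD _ (by rw [(h x).2]; exact unitD_mem_of_mem γ.2)⟩,
      fun x ↦ (h x).1⟩
  eq_of_mem _ _ _ e := heckeMatrix_injective_mod e

omit [NeZero N] in
theorem isPosRational_U : IsPosRational (fun x : ZMod q ↦ heckeMatrix q x.val) where
  det_pos x := ModularForm.det_heckeMatrix_pos q x.val
  rat j := by
    refine ⟨qgl 1 j.val 0 q, Units.ext ?_⟩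
    show ((qm 1 (j.val : ℚ) 0 q : GL (Fin 2) ℝ) : Matrix (Fin 2) (Fin 2) ℝ)
      = ((heckeMatrix q j.val : GL (Fin 2) ℝ) : Matrix (Fin 2) (Fin 2) ℝ)
    rw [val_qm (by simp [NeZero.ne q]), ModularForm.val_heckeMatrix (NeZero.ne q)]
    simp [-ZMod.natCast_val]

omit [NeZero N] in
theorem exists_J_U (x : ZMod q) :
    ∃ (y : ZMod q) (β : GammaH N H),
      UpperHalfPlane.J * heckeMatrix q x.val * UpperHalfPlane.J
        = toGLR β * heckeMatrix q y.val := by
  obtain ⟨m, hm⟩ : (q : ℤ) ∣ -(x.val : ℤ) - ((-x).val : ℤ) := by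
    rw [← ZMod.intCast_zmod_eq_zero_iff_dvd]
    push_cast
    simp
  refine ⟨-x, ⟨⟨!![1, m; 0, 1], by rw [Matrix.det_fin_two_of]; ring⟩,
    Gamma1_le_GammaH (by simp [Gamma1_mem])⟩, ?_⟩
  have hm' := congrArg (Int.cast : ℤ → ℝ) hm
  push_cast at hm'
  ext i j
  fin_cases i <;> fin_cases j <;>
    simp [toGLR, Matrix.mul_apply, Fin.sum_univ_two, ModularForm.val_heckeMatrix (NeZero.ne q),
      -ZMod.natCast_val]
  linarith

omit [NeZero q] in
/-- The Hecke operator `U_q`. -/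
def heckeU : Module.End ℂ (S2 N H) :=
  haveI := neZero_of_dvd_level hqN
  slashOp (isCosetFamily_U hqN) isPosRational_U

theorem coe_heckeU (f : S2 N H) :
    (heckeU hqN f : ℍ → ℂ) = ∑ x : ZMod q, (f : ℍ → ℂ) ∣[(2 : ℤ)] heckeMatrix q x.val := rfl

theorem commute_diamond_heckeU (a : (ZMod N)ˣ) :
    Commute (diamond (H := H) a) (heckeU hqN) := by
  refine LinearMap.ext fun f ↦ DFunLike.coe_injective ?_
  show (diamond a (heckeU hqN f) : ℍ → ℂ) = (heckeU hqN (diamond a f) : ℍ → ℂ)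
  obtain ⟨σ, g', h⟩ := exists_perm_repU hqN (deltaOf N a)
  rw [coe_diamond', coe_heckeU, coe_heckeU, ModularForm.SL_slash, SlashAction.sum_slash,
    ← Equiv.sum_comp σ (fun x ↦ (diamond a f : ℍ → ℂ) ∣[(2 : ℤ)] heckeMatrix q x.val)]
  refine Finset.sum_congr rfl fun x _ ↦ ?_
  have hx : unitD N (g' x) = a := by rw [(h x).2, unitD_deltaOf]
  rw [← SlashAction.slash_mul]
  show (f : ℍ → ℂ) ∣[(2 : ℤ)] (heckeMatrix q x.val * toGLR (deltaOf N a : SL(2, ℤ))) = _
  rw [(h x).1, SlashAction.slash_mul]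
  congr 1
  rw [← hx, coe_diamond]
  rfl

end U

/-! ## `q`-expansions -/

omit [NeZero N] in
theorem one_mem_periods_GammaH :
    (1 : ℝ) ∈ (GammaH N H : Subgroup (GL (Fin 2) ℝ)).strictPeriods := by
  rw [Subgroup.strictPeriods_eq_zmultiples_one_of_T_mem T_mem_GammaH]
  exact AddSubgroup.mem_zmultiples 1

instance fact_isCusp_infty_GammaH :
    Fact (IsCusp OnePoint.infty (GammaH N H : Subgroup (GL (Fin 2) ℝ))) :=
  ⟨Subgroup.isCusp_of_mem_strictPeriods one_pos one_mem_periods_GammaH⟩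

omit [NeZero N] in
theorem periodic_form (f : S2 N H) : Function.Periodic ((f : ℍ → ℂ) ∘ ofComplex) 1 := by
  simpa using SlashInvariantFormClass.periodic_comp_ofComplex f (one_mem_periods_GammaH (H := H))

omit [NeZero N] in
theorem hasQ_form (f : S2 N H) : HasQ ⇑f (qCoeff ⇑f) :=
  fun τ => ModularForm.hasSum_qExpansion f one_pos one_mem_periods_GammaH τ

omit [NeZero N] in
theorem qCoeff_eq_of_hasQ {f : S2 N H} {c : ℕ → ℂ} (h : HasQ ⇑f c) (n : ℕ) : qCoeff ⇑f n = c n :=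
  (ModularFormClass.qExpansion_coeff_unique one_pos one_mem_periods_GammaH
    (fun τ => by simpa [smul_eq_mul] using h τ) n).symm

omit [NeZero N] in
theorem qCoeff_add (f g : S2 N H) (n : ℕ) : qCoeff ⇑(f + g) n = qCoeff ⇑f n + qCoeff ⇑g n :=
  qCoeff_eq_of_hasQ (f := f + g) (c := fun n ↦ qCoeff ⇑f n + qCoeff ⇑g n)
    (by simpa using (hasQ_form f).add (hasQ_form g)) n

omit [NeZero N] in
theorem qCoeff_smul (c : ℂ) (f : S2 N H) (n : ℕ) : qCoeff ⇑(c • f) n = c * qCoeff ⇑f n :=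
  qCoeff_eq_of_hasQ (f := c • f) (c := fun n ↦ c * qCoeff ⇑f n)
    (by simpa using (hasQ_form f).smul c) n

/-- The `n`-th coefficient as a linear functional. -/
def qLin (n : ℕ) : S2 N H →ₗ[ℂ] ℂ where
  toFun f := qCoeff ⇑f n
  map_add' f g := qCoeff_add f g n
  map_smul' c f := qCoeff_smul c f n

omit [NeZero N] in
@[simp] theorem qLin_apply (n : ℕ) (f : S2 N H) : qLin n f = qCoeff ⇑f n := rfl

omit [NeZero N] in
theorem qCoeff_form_zero (f : S2 N H) : qCoeff ⇑f 0 = 0 :=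
  CuspFormClass.qExpansion_coeff_zero f one_pos one_mem_periods_GammaH

omit [NeZero N] in
theorem form_ext_qCoeff {f g : S2 N H} (h : ∀ n, qCoeff ⇑f n = qCoeff ⇑g n) : f = g := by
  refine DFunLike.ext _ _ fun τ ↦ ((hasQ_form f) τ).unique ?_
  simpa [h] using (hasQ_form g) τ

omit [NeZero N] in
theorem hasQ_preludeU {q : ℕ} (hq : q ≠ 0) (f : S2 N H) :
    HasQ (ModularForm.heckeU 2 q ⇑f) fun n ↦ qCoeff ⇑f (n * q) := by
  intro τ
  have h := UpperHalfPlane.hasSum_qExpansion one_pos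
    (by simpa using ModularForm.periodic_heckeU_comp_ofComplex (periodic_form f) 2 q)
    (ModularForm.mdifferentiable_heckeU (CuspFormClass.holo f) 2 q)
    (ModularForm.isBoundedAtImInfty_heckeU (ModularFormClass.bdd_at_infty f) 2 q) τ
  refine h.congr_fun fun n ↦ ?_
  rw [smul_eq_mul]
  congr 1
  exact (UpperHalfPlane.qCoeff_heckeU (periodic_form f) (CuspFormClass.holo f)
    (ModularFormClass.bdd_at_infty f) 2 hq n).symm

theorem qCoeff_heckeU {q : ℕ} (hqN : q ∣ N) (f : S2 N H) (n : ℕ) :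
    qCoeff ⇑(heckeU hqN f) n = qCoeff ⇑f (n * q) := by
  have := neZero_of_dvd_level hqN
  refine qCoeff_eq_of_hasQ (c := fun n ↦ qCoeff ⇑f (n * q)) ?_ n
  rw [coe_heckeU, ← heckeU_eq_sum_zmod]
  exact hasQ_preludeU (NeZero.ne q) f

/-- The effect of `T_ℓ` on `q`-expansions. -/
theorem qCoeff_heckeT {l : ℕ} (hl : l.Prime) (hlN : ¬ l ∣ N) (f : S2 N H) (n : ℕ) :
    qCoeff ⇑(heckeT hl hlN f) n = qCoeff ⇑f (n * l)
      + if l ∣ n then (l : ℂ) * qCoeff ⇑(diamond (primeUnit hl hlN) f) (n / l) else 0 := by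
  have : NeZero l := ⟨hl.ne_zero⟩
  set g := diamond (primeUnit hl hlN) f with hg
  refine qCoeff_eq_of_hasQ (c := fun n ↦ qCoeff ⇑f (n * l)
    + if l ∣ n then (l : ℂ) * qCoeff ⇑g (n / l) else 0) ?_ n
  have hD : heckeDiagMatrix l = qm l 0 0 1 := by
    refine Units.ext ?_
    rw [val_qm (by simp [hl.ne_zero]), ModularForm.val_heckeDiagMatrix hl.ne_zero]
    simp
  have e : (heckeT hl hlN f : ℍ → ℂ)
      = ModularForm.heckeU 2 l ⇑f + (g : ℍ → ℂ) ∣[(2 : ℤ)] qm l 0 0 1 := by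
    rw [coe_heckeT, heckeU_eq_sum_zmod, ← hD, hg, coe_diamond', ModularForm.SL_slash,
      ← SlashAction.slash_mul, add_comm]
    refine (Fintype.sum_option _).trans ?_
    exact congrArg₂ (· + ·) rfl (Finset.sum_congr rfl fun j _ ↦
      congrArg (fun g : GL (Fin 2) ℝ ↦ (f : ℍ → ℂ) ∣[(2 : ℤ)] g) (repT_coe hl hlN j))
  rw [e]
  refine (hasQ_preludeU hl.ne_zero f).add (((hasQ_form g).dilate 2 hl.pos).congr fun n ↦ ?_)
  norm_num

theorem commute_heckeT {l m : ℕ} (hl : l.Prime) (hlN : ¬ l ∣ N) (hm : m.Prime) (hmN : ¬ m ∣ N) :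
    Commute (heckeT (H := H) hl hlN) (heckeT hm hmN) := by
  rcases eq_or_ne l m with rfl | hne
  · exact Commute.refl _
  have hlm : Nat.Coprime l m := (Nat.coprime_primes hl hm).mpr hne
  refine LinearMap.ext fun f ↦ form_ext_qCoeff fun n ↦ ?_
  have hd : ∀ (a : (ZMod N)ˣ) {p : ℕ} (hp : p.Prime) (hpN : ¬ p ∣ N) (g : S2 N H),
      diamond a (heckeT hp hpN g) = heckeT hp hpN (diamond a g) := fun a p hp hpN g ↦
    LinearMap.congr_fun (commute_diamond_heckeT hp hpN a) g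
  have hdd : ∀ (a b : (ZMod N)ˣ) (g : S2 N H), diamond a (diamond b g) = diamond b (diamond a g) :=
    fun a b g ↦ LinearMap.congr_fun (commute_diamond a b) g
  simp only [Module.End.mul_apply, qCoeff_heckeT, hd]
  rw [hdd (primeUnit hm hmN)]
  by_cases h1 : l ∣ n <;> by_cases h2 : m ∣ n
  · obtain ⟨t, rfl⟩ := Nat.Coprime.mul_dvd_of_dvd_of_dvd hlm h1 h2
    have e1 : l * m * t / l = m * t := by rw [mul_assoc, Nat.mul_div_cancel_left _ hl.pos]
    have e2 : l * m * t / m = l * t := by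
      rw [mul_comm l m, mul_assoc, Nat.mul_div_cancel_left _ hm.pos]
    simp only [h1, h2, h1.mul_right, h2.mul_right, if_true, e1, e2, dvd_mul_right,
      Nat.mul_div_cancel_left _ hl.pos, Nat.mul_div_cancel_left _ hm.pos,
      Nat.mul_div_right_comm h2, Nat.mul_div_right_comm h1]
    ring_nf
  · have h3 : ¬ m ∣ n * l := fun h ↦ h2 (hlm.symm.dvd_of_dvd_mul_right h)
    have h4 : ¬ m ∣ n / l := fun h ↦ h2 (h.trans (Nat.div_dvd_of_dvd h1))
    simp only [h1, h2, h3, h4, h1.mul_right, if_true, if_false, Nat.mul_div_right_comm h1]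
    ring_nf
  · have h3 : ¬ l ∣ n * m := fun h ↦ h1 (hlm.dvd_of_dvd_mul_right h)
    have h4 : ¬ l ∣ n / m := fun h ↦ h1 (h.trans (Nat.div_dvd_of_dvd h2))
    simp only [h1, h2, h3, h4, h2.mul_right, if_true, if_false, Nat.mul_div_right_comm h2]
    ring_nf
  · have h3 : ¬ l ∣ n * m := fun h ↦ h1 (hlm.dvd_of_dvd_mul_right h)
    have h4 : ¬ m ∣ n * l := fun h ↦ h2 (hlm.symm.dvd_of_dvd_mul_right h)
    simp only [h1, h2, h3, h4, if_false]
    ring_nf

theorem commute_heckeT_heckeU {l q : ℕ} (hl : l.Prime) (hlN : ¬ l ∣ N) (hqN : q ∣ N) :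
    Commute (heckeT (H := H) hl hlN) (heckeU hqN) := by
  refine LinearMap.ext fun f ↦ form_ext_qCoeff fun n ↦ ?_
  have hcop : Nat.Coprime l q :=
    ((Nat.Prime.coprime_iff_not_dvd hl).mpr hlN).coprime_dvd_right hqN
  simp only [Module.End.mul_apply, qCoeff_heckeT, qCoeff_heckeU]
  have := neZero_of_dvd_level hqN
  have hd : diamond (primeUnit hl hlN) (heckeU hqN f)
      = heckeU hqN (diamond (primeUnit hl hlN) f) :=
    LinearMap.congr_fun (commute_diamond_heckeU hqN (primeUnit hl hlN)) f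
  rw [hd]
  by_cases h1 : l ∣ n
  · simp only [h1, h1.mul_right, if_true, qCoeff_heckeU, Nat.mul_div_right_comm h1]
    ring_nf
  · have h3 : ¬ l ∣ n * q := fun h ↦ h1 (hcop.dvd_of_dvd_mul_right h)
    simp only [h1, h3, if_false]
    ring_nf

theorem commute_heckeU {q q' : ℕ} (hqN : q ∣ N) (hqN' : q' ∣ N) :
    Commute (heckeU (H := H) hqN) (heckeU hqN') := by
  refine LinearMap.ext fun f ↦ form_ext_qCoeff fun n ↦ ?_
  simp only [Module.End.mul_apply, qCoeff_heckeU]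
  ring_nf

/-! ## Operators on homomorphisms and equivariance of the period isomorphism -/

variable (R A : Type*) [Semiring R] [AddCommGroup A] [Module R A]

/-- The diamond operator on homomorphisms. -/
def diamondH (a : (ZMod N)ˣ) : Module.End R (H1 N H R A) :=
  transferPE (isCosetFamily_diamond a) R A

/-- `T_ℓ` on homomorphisms. -/
def heckeTH {l : ℕ} (hl : l.Prime) (hlN : ¬ l ∣ N) : Module.End R (H1 N H R A) :=
  haveI : NeZero l := ⟨hl.ne_zero⟩
  transferPE (isCosetFamily_T hl hlN) R A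

/-- `U_q` on homomorphisms. -/
def heckeUH {q : ℕ} (hqN : q ∣ N) : Module.End R (H1 N H R A) :=
  haveI := neZero_of_dvd_level hqN
  transferPE (isCosetFamily_U hqN) R A

variable {R A}

theorem periodIso_diamond (hH : (-1 : (ZMod N)ˣ) ∈ H) (a : (ZMod N)ˣ) (p : S2 N H × S2 N H) :
    periodIso hH (diamond a p.1, diamond a p.2) = diamondH ℂ ℂ a (periodIso hH p) :=
  periodPairPE_slashOp jStable_GammaH _ _ (fun i ↦ exists_J_diamond a i) p

theorem periodIso_heckeT (hH : (-1 : (ZMod N)ˣ) ∈ H) {l : ℕ} (hl : l.Prime) (hlN : ¬ l ∣ N)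
    (p : S2 N H × S2 N H) :
    periodIso hH (heckeT hl hlN p.1, heckeT hl hlN p.2)
      = heckeTH ℂ ℂ hl hlN (periodIso hH p) := by
  have : NeZero l := ⟨hl.ne_zero⟩
  exact periodPairPE_slashOp jStable_GammaH _ _ (fun i ↦ exists_J_T hl hlN i) p

theorem periodIso_heckeU (hH : (-1 : (ZMod N)ˣ) ∈ H) {q : ℕ} (hqN : q ∣ N)
    (p : S2 N H × S2 N H) :
    periodIso hH (heckeU hqN p.1, heckeU hqN p.2) = heckeUH ℂ ℂ hqN (periodIso hH p) := by
  have := neZero_of_dvd_level hqN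
  exact periodPairPE_slashOp jStable_GammaH _ _ (fun i ↦ exists_J_U i) p

end Fermat.Agent.GammaH
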