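import Fermat.Agent.GammaH.Algebra

/-!
# Change of `H`, and comparison with `Γ₀(N)`

`inclH` and `heckeRes` change `H`; `map_heckeRing_top` identifies the Hecke ring of `Γ_⊤(N)`
with Prelude's one of `Γ₀(N)`.
-/

set_option autoImplicit false

noncomputable section

namespace Fermat.Agent.GammaH

open UpperHalfPlane CongruenceSubgroup Fermat.Agent.Periods Fermat.Agent.Newform
open Fermat.Agent.Cosets (parEllHoms)
open P2MW.S_ModularForm_heckeT_slash_eq_self_of_mem_Gamma0.ModularForm.HeckeSlashInvariance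
  (heckeRep heckeT_eq_sum_onePoint heckeU_eq_sum_zmod)
open scoped MatrixGroups ModularForm OnePoint

variable {N : ℕ} [NeZero N] {H H' : Subgroup (ZMod N)ˣ}

/-! ## Change of `H` -/

section Change

variable (h : H ≤ H')

/-- Forms for `Γ_{H'}(N)` are forms for the smaller group `Γ_H(N)`. -/
def inclH : S2 N H' →ₗ[ℂ] S2 N H where
  toFun f := ofCuspFun (isCuspFun_cuspForm f) fun _ hγ ↦ slash_eq_self f (GammaH_mono h hγ)
  map_add' _ _ := DFunLike.coe_injective <| by simp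
  map_smul' _ _ := DFunLike.coe_injective <| by simp

@[simp] theorem coe_inclH (f : S2 N H') : (inclH h f : ℍ → ℂ) = f := rfl

theorem inclH_injective : Function.Injective (inclH h) := fun _ _ e ↦
  DFunLike.coe_injective (congrArg (fun x : S2 N H ↦ (x : ℍ → ℂ)) e)

theorem inclH_diamond (a : (ZMod N)ˣ) (f : S2 N H') :
    inclH h (diamond a f) = diamond a (inclH h f) :=
  DFunLike.coe_injective <| by rw [coe_inclH, coe_diamond', coe_diamond', coe_inclH]

theorem inclH_heckeT {l : ℕ} (hl : l.Prime) (hlN : ¬ l ∣ N) (f : S2 N H') :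
    inclH h (heckeT hl hlN f) = heckeT hl hlN (inclH h f) := by
  have : NeZero l := ⟨hl.ne_zero⟩
  exact DFunLike.coe_injective <| by rw [coe_inclH, coe_heckeT, coe_heckeT, coe_inclH]

theorem inclH_heckeU {q : ℕ} (hqN : q ∣ N) (f : S2 N H') :
    inclH h (heckeU hqN f) = heckeU hqN (inclH h f) := by
  have := neZero_of_dvd_level hqN
  exact DFunLike.coe_injective <| by rw [coe_inclH, coe_heckeU, coe_heckeU, coe_inclH]

/-- The image of `inclH` is the space fixed by the diamonds of `H'`. -/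
theorem mem_range_inclH {f : S2 N H} :
    f ∈ LinearMap.range (inclH h) ↔ ∀ a ∈ H', diamond a f = f := by
  constructor
  · rintro ⟨g, rfl⟩ a ha
    rw [← inclH_diamond, diamond_apply_of_mem ha]
  · intro hf
    refine ⟨ofCuspFun (isCuspFun_cuspForm f) fun γ hγ ↦ ?_, DFunLike.coe_injective rfl⟩
    obtain ⟨h0, hu⟩ := mem_GammaH.mp hγ
    show (f : ℍ → ℂ) ∣[(2 : ℤ)] ((⟨γ, h0⟩ : Gamma0 N) : SL(2, ℤ)) = f
    rw [← coe_diamond, hf _ hu]

variable {S : Set ℕ}

theorem exists_heckeRes (t : heckeRing N H S) :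
    ∃ t' : heckeRing N H' S, ∀ f : S2 N H', inclH h (t'.1 f) = t.1 (inclH h f) := by
  let B : Subalgebra ℤ (Module.End ℂ (S2 N H)) :=
    { carrier := {t | ∃ t' : heckeRing N H' S, ∀ f : S2 N H', inclH h (t'.1 f) = t (inclH h f)}
      mul_mem' := fun {a b} ⟨a', ha⟩ ⟨b', hb⟩ ↦ ⟨a' * b', fun f ↦ by
        rw [MulMemClass.coe_mul, Module.End.mul_apply, Module.End.mul_apply, ha, hb]⟩
      one_mem' := ⟨1, fun f ↦ by simp⟩
      add_mem' := fun {a b} ⟨a', ha⟩ ⟨b', hb⟩ ↦ ⟨a' + b', fun f ↦ by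
        rw [AddMemClass.coe_add, LinearMap.add_apply, LinearMap.add_apply, map_add, ha, hb]⟩
      zero_mem' := ⟨0, fun f ↦ by simp⟩
      algebraMap_mem' := fun n ↦ ⟨algebraMap ℤ _ n, fun f ↦ by
        rw [Subalgebra.coe_algebraMap, Algebra.algebraMap_eq_smul_one,
          Algebra.algebraMap_eq_smul_one, LinearMap.smul_apply, LinearMap.smul_apply,
          Module.End.one_apply, Module.End.one_apply, map_zsmul]⟩ }
  have hle : heckeRing N H S ≤ B := Algebra.adjoin_le <| by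
    rintro t ((⟨a, rfl⟩ | ⟨l, hl, hlN, hlS, rfl⟩) | ⟨q, hqN, hq, hqS, rfl⟩)
    · exact ⟨diamondR a, inclH_diamond h a⟩
    · exact ⟨heckeTR hl hlN hlS, inclH_heckeT h hl hlN⟩
    · exact ⟨heckeUR hq hqN hqS, inclH_heckeU h hqN⟩
  exact hle t.2

/-- Restriction of the Hecke ring to the forms of a larger `H`. -/
def heckeRes : heckeRing N H S →+* heckeRing N H' S :=
  have huniq : ∀ (t : heckeRing N H S) (t' : heckeRing N H' S),
      (∀ f, inclH h (t'.1 f) = t.1 (inclH h f)) → (exists_heckeRes h t).choose = t' :=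
    fun t t' ht ↦ Subtype.ext <| LinearMap.ext fun f ↦ inclH_injective h <| by
      rw [(exists_heckeRes h t).choose_spec, ht]
  { toFun := fun t ↦ (exists_heckeRes h t).choose
    map_one' := huniq 1 1 fun f ↦ by simp
    map_mul' := fun s t ↦ huniq _ _ fun f ↦ by
      rw [MulMemClass.coe_mul, MulMemClass.coe_mul, Module.End.mul_apply, Module.End.mul_apply,
        (exists_heckeRes h s).choose_spec, (exists_heckeRes h t).choose_spec]
    map_zero' := huniq 0 0 fun f ↦ by simp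
    map_add' := fun s t ↦ huniq _ _ fun f ↦ by
      rw [AddMemClass.coe_add, AddMemClass.coe_add, LinearMap.add_apply, LinearMap.add_apply,
        map_add, (exists_heckeRes h s).choose_spec, (exists_heckeRes h t).choose_spec] }

theorem inclH_heckeRes (t : heckeRing N H S) (f : S2 N H') :
    inclH h ((heckeRes h t).1 f) = t.1 (inclH h f) :=
  (exists_heckeRes h t).choose_spec f

theorem heckeRes_diamond (a : (ZMod N)ˣ) :
    heckeRes (S := S) h (diamondR a) = diamondR a :=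
  Subtype.ext <| LinearMap.ext fun f ↦ inclH_injective h <| by
    rw [inclH_heckeRes, coe_diamondR, coe_diamondR, inclH_diamond]

theorem heckeRes_heckeT {l : ℕ} (hl : l.Prime) (hlN : ¬ l ∣ N) (hlS : l ∉ S) :
    heckeRes h (heckeTR hl hlN hlS) = heckeTR hl hlN hlS :=
  Subtype.ext <| LinearMap.ext fun f ↦ inclH_injective h <| by
    rw [inclH_heckeRes, coe_heckeTR, coe_heckeTR, inclH_heckeT]

theorem heckeRes_heckeU {q : ℕ} (hq : q.Prime) (hqN : q ∣ N) (hqS : q ∉ S) :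
    heckeRes h (heckeUR hq hqN hqS) = heckeUR hq hqN hqS :=
  Subtype.ext <| LinearMap.ext fun f ↦ inclH_injective h <| by
    rw [inclH_heckeRes, coe_heckeUR, coe_heckeUR, inclH_heckeU]

theorem heckeRes_surjective : Function.Surjective (heckeRes (S := S) h) := by
  intro t'
  let B : Subalgebra ℤ (Module.End ℂ (S2 N H')) :=
    { carrier := {x | ∃ t : heckeRing N H S, (heckeRes h t).1 = x}
      mul_mem' := fun {a b} ⟨s, hs⟩ ⟨t, ht⟩ ↦ ⟨s * t, by rw [map_mul, MulMemClass.coe_mul, hs, ht]⟩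
      one_mem' := ⟨1, by rw [map_one, OneMemClass.coe_one]⟩
      add_mem' := fun {a b} ⟨s, hs⟩ ⟨t, ht⟩ ↦ ⟨s + t, by rw [map_add, AddMemClass.coe_add, hs, ht]⟩
      zero_mem' := ⟨0, by rw [map_zero, ZeroMemClass.coe_zero]⟩
      algebraMap_mem' := fun n ↦ ⟨(n : heckeRing N H S), by simp⟩ }
  have hle : heckeRing N H' S ≤ B := Algebra.adjoin_le <| by
    rintro t ((⟨a, rfl⟩ | ⟨l, hl, hlN, hlS, rfl⟩) | ⟨q, hqN, hq, hqS, rfl⟩)
    · exact ⟨diamondR a, by rw [heckeRes_diamond, coe_diamondR]⟩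
    · exact ⟨heckeTR hl hlN hlS, by rw [heckeRes_heckeT, coe_heckeTR]⟩
    · exact ⟨heckeUR hq hqN hqS, by rw [heckeRes_heckeU, coe_heckeUR]⟩
  obtain ⟨t, ht⟩ := hle t'.2
  exact ⟨t, Subtype.ext ht⟩

end Change

/-! ## `H = ⊤` -/

/-- Forms for `Γ_⊤(N)` are forms for `Γ₀(N)`. -/
def equivGamma0 (N : ℕ) [NeZero N] :
    S2 N ⊤ ≃ₗ[ℂ] CuspForm (Gamma0 N : Subgroup (GL (Fin 2) ℝ)) 2 where
  toFun f := ofCuspFun (isCuspFun_cuspForm f) fun _ hγ ↦
    slash_eq_self f (mem_GammaH.mpr ⟨hγ, Subgroup.mem_top _⟩)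
  invFun f := ofCuspFun (isCuspFun_cuspForm f) fun _ hγ ↦ slash_eq_self f (GammaH_le_Gamma0 hγ)
  map_add' _ _ := DFunLike.coe_injective <| by simp
  map_smul' _ _ := DFunLike.coe_injective <| by simp
  left_inv _ := DFunLike.coe_injective rfl
  right_inv _ := DFunLike.coe_injective rfl

@[simp] theorem coe_equivGamma0 (f : S2 N ⊤) : (equivGamma0 N f : ℍ → ℂ) = f := rfl

theorem equivGamma0_diamond (a : (ZMod N)ˣ) (f : S2 N ⊤) :
    equivGamma0 N (diamond a f) = equivGamma0 N f := by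
  rw [diamond_apply_of_mem (Subgroup.mem_top a)]

theorem equivGamma0_heckeT {l : ℕ} (hl : l.Prime) (hlN : ¬ l ∣ N) (f : S2 N ⊤) :
    equivGamma0 N (heckeT hl hlN f) = CuspForm.heckeTLin 2 hl hlN (equivGamma0 N f) := by
  have : NeZero l := ⟨hl.ne_zero⟩
  refine DFunLike.coe_injective ?_
  rw [coe_equivGamma0, coe_heckeT, CuspForm.coe_heckeTLin_apply, coe_equivGamma0,
    heckeT_eq_sum_onePoint]
  refine Finset.sum_congr rfl fun x _ ↦ ?_
  rw [repT, SlashAction.slash_mul]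
  congr 1
  exact slash_eq_self f (mem_GammaH.mpr ⟨(corrT hl hlN x).2, Subgroup.mem_top _⟩)

theorem equivGamma0_heckeU {q : ℕ} (hqN : q ∣ N) (f : S2 N ⊤) :
    equivGamma0 N (heckeU hqN f) = CuspForm.heckeULin 2 hqN (equivGamma0 N f) := by
  have := neZero_of_dvd_level hqN
  refine DFunLike.coe_injective ?_
  rw [coe_equivGamma0, coe_heckeU, CuspForm.coe_heckeULin_apply, coe_equivGamma0,
    heckeU_eq_sum_zmod]

/-- Transport of endomorphisms to `Γ₀(N)`. -/
def endGamma0 (N : ℕ) [NeZero N] :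
    Module.End ℂ (S2 N ⊤) ≃ₐ[ℤ]
      Module.End ℂ (CuspForm (Gamma0 N : Subgroup (GL (Fin 2) ℝ)) 2) :=
  AlgEquiv.ofRingEquiv (f := (equivGamma0 N).conjRingEquiv) fun n ↦ by simp

theorem endGamma0_apply (t : Module.End ℂ (S2 N ⊤)) (f : S2 N ⊤) :
    endGamma0 N t (equivGamma0 N f) = equivGamma0 N (t f) := by
  simp [endGamma0, LinearEquiv.conjRingEquiv]

variable (N) in
/-- The Hecke ring of `Γ_⊤(N)` is Prelude's Hecke algebra of `Γ₀(N)`. -/
theorem map_heckeRing_top (S : Set ℕ) :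
    (heckeRing N ⊤ S).map (endGamma0 N).toAlgHom = CuspForm.heckeAlgebra N 2 S := by
  have hT : ∀ {l : ℕ} (hl : l.Prime) (hlN : ¬ l ∣ N),
      endGamma0 N (heckeT hl hlN) = CuspForm.heckeTLin 2 hl hlN := fun hl hlN ↦
    LinearMap.ext fun g ↦ by
      obtain ⟨f, rfl⟩ := (equivGamma0 N).surjective g
      rw [endGamma0_apply, equivGamma0_heckeT]
  have hU : ∀ {q : ℕ} (hqN : q ∣ N), endGamma0 N (heckeU hqN) = CuspForm.heckeULin 2 hqN :=
    fun hqN ↦ LinearMap.ext fun g ↦ by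
      obtain ⟨f, rfl⟩ := (equivGamma0 N).surjective g
      rw [endGamma0_apply, equivGamma0_heckeU]
  have hd : ∀ a : (ZMod N)ˣ, endGamma0 N (diamond a) = 1 := fun a ↦ LinearMap.ext fun g ↦ by
    obtain ⟨f, rfl⟩ := (equivGamma0 N).surjective g
    rw [endGamma0_apply, equivGamma0_diamond, Module.End.one_apply]
  rw [heckeRing, AlgHom.map_adjoin]
  refine le_antisymm (Algebra.adjoin_le ?_) (Algebra.adjoin_le ?_)
  · rintro _ ⟨t, ((⟨a, rfl⟩ | ⟨l, hl, hlN, hlS, rfl⟩) | ⟨q, hqN, hq, hqS, rfl⟩), rfl⟩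
    · show endGamma0 N (diamond a) ∈ _
      rw [hd]
      exact one_mem _
    · show endGamma0 N (heckeT hl hlN) ∈ _
      rw [hT]
      exact CuspForm.heckeTLin_mem_heckeAlgebra hl hlN hlS
    · show endGamma0 N (heckeU hqN) ∈ _
      rw [hU]
      exact CuspForm.heckeULin_mem_heckeAlgebra hq hqN hqS
  · rintro _ (⟨l, hl, hlN, hlS, rfl⟩ | ⟨q, hqN, hq, hqS, rfl⟩)
    · exact Algebra.subset_adjoin ⟨_, Or.inl (Or.inr ⟨l, hl, hlN, hlS, rfl⟩), hT hl hlN⟩
    · exact Algebra.subset_adjoin ⟨_, Or.inr ⟨q, hqN, hq, hqS, rfl⟩, hU hqN⟩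

end Fermat.Agent.GammaH
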