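import Mathlib
import Fermat.Prelude.Def_ModularCurve_PeriodHomPair
import Fermat.Agent.Periods.Injective
import Fermat.Agent.Periods.Parabolic
import Fermat.Agent.Periods.Transfer
import Fermat.Agent.Periods.HeckeHom

/-!
# Periods of weight two cusp forms on a finite index subgroup of `SL(2, ℤ)`

`periodPair_injective` and the equivariance `periodPair_eq_transfer` for `J`-stable coset
families.
-/

set_option autoImplicit false

noncomputable section

namespace Fermat.Agent.GammaH

open UpperHalfPlane CongruenceSubgroup Filter Topology ModularCurve.Period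
open Fermat.Agent.Periods
open scoped MatrixGroups ModularForm

variable (Γ : Subgroup SL(2, ℤ))

/-- A common width of all cusps. -/
def cuspWidth : ℕ := Γ.normalCore.index

variable {Γ}

theorem cuspWidth_pos [Γ.FiniteIndex] : 0 < cuspWidth Γ :=
  Nat.pos_of_ne_zero Subgroup.FiniteIndex.index_ne_zero

theorem conj_T_pow_cuspWidth_mem (δ : SL(2, ℤ)) :
    δ * ModularGroup.T ^ (cuspWidth Γ : ℤ) * δ⁻¹ ∈ Γ := by
  rw [zpow_natCast]
  exact Γ.normalCore_le
    ((Subgroup.normalCore_normal Γ).conj_mem _ (Γ.normalCore.pow_index_mem _) δ)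

theorem slash_eq_self {k : ℤ} (f : CuspForm (Γ : Subgroup (GL (Fin 2) ℝ)) k) {γ : SL(2, ℤ)}
    (hγ : γ ∈ Γ) : (f : ℍ → ℂ) ∣[k] γ = f :=
  SlashInvariantFormClass.slash_action_eq f _ ⟨γ, hγ, rfl⟩

variable [Γ.FiniteIndex]

local notation "S₂" => CuspForm (Γ : Subgroup (GL (Fin 2) ℝ)) 2

theorem exists_chart_primitive (f : S₂) (δ : SL(2, ℤ)) :
    ∃ G : ℍ → ℂ, (∀ τ : ℍ, HasDerivAt (G ∘ ofComplex) (((f : ℍ → ℂ) ∣[(2 : ℤ)] δ) τ) (τ : ℂ)) ∧
      Tendsto G atImInfty (𝓝 0) ∧ ∀ τ : ℍ, G ((cuspWidth Γ : ℝ) +ᵥ τ) = G τ :=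
  exists_periodic_chart_primitive f δ cuspWidth_pos (conj_T_pow_cuspWidth_mem δ)

/-- A primitive vanishing at `i∞`. -/
structure IsPrimitive (f : ℍ → ℂ) (F : ℍ → ℂ) : Prop where
  hasDeriv : ∀ τ : ℍ, HasDerivAt (F ∘ ofComplex) (f τ) (τ : ℂ)
  tendsto : Tendsto F atImInfty (𝓝 0)

theorem IsPrimitive.eq {f F F' : ℍ → ℂ} (h : IsPrimitive f F) (h' : IsPrimitive f F') :
    F = F' :=
  eq_of_hasDerivAt_of_tendsto h.hasDeriv h'.hasDeriv h.tendsto h'.tendsto

theorem exists_isPrimitive (f : S₂) : ∃ F : ℍ → ℂ, IsPrimitive f F := by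
  obtain ⟨F, hF, hF0, -⟩ := exists_chart_primitive f 1
  simp only [SlashAction.slash_one] at hF
  exact ⟨F, hF, hF0⟩

/-- The primitive of a cusp form vanishing at `i∞`. -/
def primitive (f : S₂) : ℍ → ℂ := (exists_isPrimitive f).choose

theorem isPrimitive_primitive (f : S₂) : IsPrimitive f (primitive f) :=
  (exists_isPrimitive f).choose_spec

theorem primitive_sub_const (f : S₂) (γ : Γ) (z w : ℍ) :
    primitive f ((γ : SL(2, ℤ)) • z) - primitive f z
      = primitive f ((γ : SL(2, ℤ)) • w) - primitive f w := by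
  refine sub_const_of_hasDerivAt (A := fun v ↦ primitive f ((γ : SL(2, ℤ)) • v))
    (B := primitive f) (f := f) (fun τ ↦ ?_) (isPrimitive_primitive f).hasDeriv z w
  have h := hasDerivAt_comp_smul (isPrimitive_primitive f).hasDeriv (γ : SL(2, ℤ)) τ
  rwa [slash_eq_self f γ.2] at h

theorem primitive_periodic (f : S₂) (δ : SL(2, ℤ)) (w : ℍ) :
    primitive f (δ • ((cuspWidth Γ : ℝ) +ᵥ w)) = primitive f (δ • w) := by
  obtain ⟨G, hG, -, hper⟩ := exists_chart_primitive f δ
  exact comp_smul_periodic_of_chart (isPrimitive_primitive f).hasDeriv δ hG hper w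

theorem primitive_tendsto (f : S₂) (δ : SL(2, ℤ)) :
    ∃ L : ℂ, Tendsto (fun w : ℍ ↦ primitive f (δ • w)) atImInfty (𝓝 L) := by
  obtain ⟨G, hG, hG0, -⟩ := exists_chart_primitive f δ
  exact exists_tendsto_comp_smul (isPrimitive_primitive f).hasDeriv δ hG hG0

/-- The periods of one cusp form. -/
def periodHom (f : S₂) : Additive Γ →+ ℂ :=
  AddMonoidHom.mk' (fun γ ↦ primitive f ((γ.toMul : SL(2, ℤ)) • UpperHalfPlane.I)
      - primitive f UpperHalfPlane.I) fun γ δ ↦ by
    have h := primitive_sub_const f γ.toMul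
      ((δ.toMul : SL(2, ℤ)) • UpperHalfPlane.I) UpperHalfPlane.I
    simp only [toMul_add, Subgroup.coe_mul, mul_smul]
    linear_combination h

theorem periodHom_apply (f : S₂) (γ : Γ) (z : ℍ) :
    periodHom f (Additive.ofMul γ) = primitive f ((γ : SL(2, ℤ)) • z) - primitive f z :=
  primitive_sub_const f γ UpperHalfPlane.I z

theorem primitive_add (f g : S₂) : primitive (f + g) = primitive f + primitive g := by
  refine (isPrimitive_primitive (f + g)).eq ⟨fun τ ↦ ?_, ?_⟩
  · simpa [Function.comp_def] using!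
      ((isPrimitive_primitive f).hasDeriv τ).add ((isPrimitive_primitive g).hasDeriv τ)
  · have := (isPrimitive_primitive f).tendsto.add (isPrimitive_primitive g).tendsto
    rwa [add_zero] at this

theorem primitive_smul (c : ℂ) (f : S₂) : primitive (c • f) = c • primitive f := by
  refine (isPrimitive_primitive (c • f)).eq ⟨fun τ ↦ ?_, ?_⟩
  · simpa [Function.comp_def] using! ((isPrimitive_primitive f).hasDeriv τ).const_mul c
  · have := (isPrimitive_primitive f).tendsto.const_smul c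
    rwa [smul_zero] at this

variable (Γ) in
/-- The period map. -/
def periodLin : S₂ →ₗ[ℂ] (Additive Γ →+ ℂ) where
  toFun := periodHom
  map_add' f g := by
    refine AddMonoidHom.ext fun γ ↦ ?_
    obtain ⟨γ, rfl⟩ := Additive.ofMul.surjective γ
    rw [AddMonoidHom.add_apply, periodHom_apply _ _ UpperHalfPlane.I,
      periodHom_apply _ _ UpperHalfPlane.I, periodHom_apply _ _ UpperHalfPlane.I, primitive_add]
    simp only [Pi.add_apply]
    ring
  map_smul' c f := by
    refine AddMonoidHom.ext fun γ ↦ ?_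
    obtain ⟨γ, rfl⟩ := Additive.ofMul.surjective γ
    rw [RingHom.id_apply, AddMonoidHom.smul_apply, periodHom_apply _ _ UpperHalfPlane.I,
      periodHom_apply _ _ UpperHalfPlane.I, primitive_smul]
    simp [mul_sub]

theorem periodLin_apply (f : S₂) (γ : Γ) (z : ℍ) :
    periodLin Γ f (Additive.ofMul γ) = primitive f ((γ : SL(2, ℤ)) • z) - primitive f z :=
  periodHom_apply f γ z

/-- Periods vanish on parabolic elements. -/
theorem periodLin_mem_parabolicHoms (f : S₂) : periodLin Γ f ∈ parabolicHoms ℂ Γ ℂ :=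
  fun γ hγ ↦ period_eq_zero_of_trace (primitive_tendsto f) (periodLin_apply f γ) hγ

/-- Stability of `Γ` under conjugation by `diag(-1, 1)`. -/
def JStable (Γ : Subgroup SL(2, ℤ)) : Prop := ∀ γ ∈ Γ, jConjSL γ ∈ Γ

omit [Γ.FiniteIndex] in
/-- Conjugation by `diag(-1, 1)` on `Γ`. -/
def jConj (hJ : JStable Γ) : Γ →* Γ :=
  (jConjSL.comp Γ.subtype).codRestrict Γ fun γ ↦ hJ γ γ.2

omit [Γ.FiniteIndex] in
@[simp]
theorem coe_jConj (hJ : JStable Γ) (γ : Γ) : (jConj hJ γ : SL(2, ℤ)) = jConjSL γ := rfl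

omit [Γ.FiniteIndex] in
/-- The involution of `Hom(Γ, A)` induced by `diag(-1, 1)`. -/
def invol (hJ : JStable Γ) (R A : Type*) [Semiring R] [AddCommGroup A] [Module R A] :
    (Additive Γ →+ A) →ₗ[R] (Additive Γ →+ A) where
  toFun ψ := ψ.comp (MonoidHom.toAdditive (jConj hJ))
  map_add' _ _ := rfl
  map_smul' _ _ := rfl

omit [Γ.FiniteIndex] in
@[simp]
theorem invol_apply (hJ : JStable Γ) {R A : Type*} [Semiring R] [AddCommGroup A] [Module R A]
    (ψ : Additive Γ →+ A) (γ : Γ) :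
    invol hJ R A ψ (Additive.ofMul γ) = ψ (Additive.ofMul (jConj hJ γ)) := rfl

omit [Γ.FiniteIndex] in
theorem invol_mem_parabolicHoms (hJ : JStable Γ) {R A : Type*} [Semiring R] [AddCommGroup A]
    [Module R A] {ψ : Additive Γ →+ A} (hψ : ψ ∈ parabolicHoms R Γ A) :
    invol hJ R A ψ ∈ parabolicHoms R Γ A := by
  intro γ hγ
  refine hψ (jConj hJ γ) ?_
  rw [coe_jConj, jConjSL_coe, jConjMat_trace]
  exact hγ

/-- The pair period map `(f, g) ↦ P(f + g) + ι P(f - g)`. -/
def periodPair (hJ : JStable Γ) : (S₂ × S₂) →ₗ[ℂ] (Additive Γ →+ ℂ) :=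
  LinearMap.coprod ((LinearMap.id + invol hJ ℂ ℂ) ∘ₗ periodLin Γ)
    ((LinearMap.id - invol hJ ℂ ℂ) ∘ₗ periodLin Γ)

theorem periodPair_apply (hJ : JStable Γ) (f g : S₂) :
    periodPair hJ (f, g) = periodLin Γ (f + g) + invol hJ ℂ ℂ (periodLin Γ (f - g)) := by
  simp only [periodPair, LinearMap.coprod_apply, LinearMap.coe_comp, Function.comp_apply,
    LinearMap.add_apply, LinearMap.sub_apply, LinearMap.id_coe, id_eq, map_add, map_sub]
  abel

theorem periodPair_mem_parabolicHoms (hJ : JStable Γ) (p : S₂ × S₂) :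
    periodPair hJ p ∈ parabolicHoms ℂ Γ ℂ := by
  obtain ⟨f, g⟩ := p
  rw [periodPair_apply]
  exact add_mem (periodLin_mem_parabolicHoms _)
    (invol_mem_parabolicHoms hJ (periodLin_mem_parabolicHoms _))

/-- **The pair period map is injective.** -/
theorem periodPair_injective (hJ : JStable Γ) : Function.Injective (periodPair hJ) := by
  rw [injective_iff_map_eq_zero]
  rintro ⟨f, g⟩ h
  rw [periodPair_apply] at h
  have hz := eq_zero_of_pair_invariant Γ (h₀ := (cuspWidth Γ : ℝ))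
    (by exact_mod_cast cuspWidth_pos (Γ := Γ)) (isPrimitive_primitive (f + g)).hasDeriv
    (isPrimitive_primitive (f - g)).hasDeriv (primitive_periodic _) (primitive_periodic _)
    (primitive_tendsto _) (primitive_tendsto _) (fun γ hγ w ↦ by
    have h' := DFunLike.congr_fun h (Additive.ofMul (⟨γ, hγ⟩ : Γ))
    rw [AddMonoidHom.add_apply, invol_apply, periodLin_apply _ _ w,
      periodLin_apply _ _ (UpperHalfPlane.J • w), AddMonoidHom.zero_apply, coe_jConj] at h'
    rw [← J_smul_SL_smul] at h'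
    linear_combination h')
  have h1 : f + g = 0 := CuspForm.ext (congrFun hz.1)
  obtain rfl : f = g := sub_eq_zero.mp (CuspForm.ext (congrFun hz.2))
  have hf : f = 0 := by
    have : (2 : ℂ) • f = 0 := by rw [two_smul]; exact h1
    simpa using this
  simp [hf]

/-- The periods of a sum of slashes are given by the transfer. -/
theorem periodLin_eq_transfer {ι : Type*} [Fintype ι] {α : ι → GL (Fin 2) ℝ}
    (h : IsCosetFamily Γ α) (hdet : ∀ i, 0 < (α i).det.val)
    (f g : S₂) (hg : (g : ℍ → ℂ) = ∑ i, (f : ℍ → ℂ) ∣[(2 : ℤ)] α i) :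
    periodLin Γ g = h.transfer ℂ ℂ (periodLin Γ f) :=
  period_eq_transfer h hdet (isPrimitive_primitive f).hasDeriv
    (isPrimitive_primitive g).hasDeriv hg (periodLin_apply f) (periodLin_apply g)

omit [Γ.FiniteIndex] in
/-- A `J`-stable coset family has transfer commuting with `invol`. -/
theorem invol_transfer (hJ : JStable Γ) {ι : Type*} [Fintype ι] {α : ι → GL (Fin 2) ℝ}
    (h : IsCosetFamily Γ α)
    (hα : ∀ i, ∃ (j : ι) (β : Γ),
      UpperHalfPlane.J * α i * UpperHalfPlane.J = toGLR β * α j)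
    {R : Type*} [Semiring R] {A : Type*} [AddCommGroup A] [Module R A]
    (φ : Additive Γ →+ A) :
    invol hJ R A (h.transfer R A φ) = h.transfer R A (invol hJ R A φ) :=
  h.transfer_comp_conj hα (jConj hJ) (coe_jConj hJ) φ

/-- Equivariance of the pair period map for a `J`-stable coset family. -/
theorem periodPair_eq_transfer (hJ : JStable Γ) {ι : Type*} [Fintype ι] {α : ι → GL (Fin 2) ℝ}
    (h : IsCosetFamily Γ α) (hdet : ∀ i, 0 < (α i).det.val)
    (hα : ∀ i, ∃ (j : ι) (β : Γ),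
      UpperHalfPlane.J * α i * UpperHalfPlane.J = toGLR β * α j)
    (L : S₂ →ₗ[ℂ] S₂) (hL : ∀ f : S₂, (L f : ℍ → ℂ) = ∑ i, (f : ℍ → ℂ) ∣[(2 : ℤ)] α i)
    (f g : S₂) :
    periodPair hJ (L f, L g) = h.transfer ℂ ℂ (periodPair hJ (f, g)) := by
  rw [periodPair_apply, periodPair_apply, ← map_add L, ← map_sub L,
    periodLin_eq_transfer h hdet (f + g) _ (hL _), periodLin_eq_transfer h hdet (f - g) _ (hL _),
    invol_transfer hJ h hα, map_add (h.transfer ℂ ℂ)]

end Fermat.Agent.GammaH
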