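import Mathlib

/-!
# The groups `Γ_H(N)`

`GammaH N H` is the subgroup of `Γ₀(N)` of matrices whose lower right entry reduces into
`H ≤ (ℤ/N)ˣ`.
-/

set_option autoImplicit false

noncomputable section

namespace Fermat.Agent.GammaH

open CongruenceSubgroup
open scoped MatrixGroups

variable (N : ℕ)

/-- The lower right entry as a unit modulo `N`. -/
def unitD : Gamma0 N →* (ZMod N)ˣ := (Gamma0Map N).toHomUnits

theorem coe_unitD (γ : Gamma0 N) : (unitD N γ : ZMod N) = ((γ : SL(2, ℤ)) 1 1 : ZMod N) := rfl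

/-- The congruence subgroup `Γ_H(N)`. -/
def GammaH (H : Subgroup (ZMod N)ˣ) : Subgroup SL(2, ℤ) :=
  (H.comap (unitD N)).map (Gamma0 N).subtype

variable {N} {H H' : Subgroup (ZMod N)ˣ} {γ δ : SL(2, ℤ)}

theorem mem_GammaH : γ ∈ GammaH N H ↔ ∃ h : γ ∈ Gamma0 N, unitD N ⟨γ, h⟩ ∈ H := by
  simp only [GammaH, Subgroup.mem_map, Subgroup.mem_comap, Subgroup.coe_subtype, Subtype.exists]
  constructor
  · rintro ⟨a, ha, hu, rfl⟩
    exact ⟨ha, hu⟩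
  · rintro ⟨h, hu⟩
    exact ⟨γ, h, hu, rfl⟩

theorem GammaH_le_Gamma0 : GammaH N H ≤ Gamma0 N := fun _ h ↦ (mem_GammaH.mp h).1

theorem GammaH_mono (h : H ≤ H') : GammaH N H ≤ GammaH N H' := fun _ hγ ↦ by
  obtain ⟨h0, hu⟩ := mem_GammaH.mp hγ
  exact mem_GammaH.mpr ⟨h0, h hu⟩

/-- Membership through the lower row. -/
theorem mem_GammaH' : γ ∈ GammaH N H ↔
    (γ 1 0 : ZMod N) = 0 ∧ ∃ a ∈ H, (γ 1 1 : ZMod N) = (a : ZMod N) := by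
  rw [mem_GammaH]
  constructor
  · rintro ⟨h, hu⟩
    exact ⟨Gamma0_mem.mp h, _, hu, rfl⟩
  · rintro ⟨h, a, ha, he⟩
    refine ⟨Gamma0_mem.mpr h, ?_⟩
    convert ha using 1
    exact Units.ext he

theorem Gamma1_le_GammaH : Gamma1 N ≤ GammaH N H := fun γ h ↦ by
  rw [Gamma1_mem] at h
  exact mem_GammaH'.mpr ⟨h.2.2, 1, one_mem _, by simpa using h.2.1⟩

theorem Gamma_le_GammaH : Gamma N ≤ GammaH N H := fun γ h ↦ by
  rw [Gamma_mem] at h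
  exact mem_GammaH'.mpr ⟨h.2.2.1, 1, one_mem _, by simpa using h.2.2.2⟩

theorem T_mem_GammaH : ModularGroup.T ∈ GammaH N H :=
  Gamma1_le_GammaH (by simp [Gamma1_mem, ModularGroup.coe_T])

theorem neg_one_mem_GammaH (hH : (-1 : (ZMod N)ˣ) ∈ H) : (-1 : SL(2, ℤ)) ∈ GammaH N H :=
  mem_GammaH'.mpr ⟨by simp, -1, hH, by simp⟩

instance finiteIndex_GammaH [NeZero N] (H : Subgroup (ZMod N)ˣ) : (GammaH N H).FiniteIndex :=
  Subgroup.finiteIndex_of_le Gamma_le_GammaH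

/-- A matrix in `Γ₀(N)` with prescribed lower right entry modulo `N`. -/
theorem exists_unitD_eq [NeZero N] (a : (ZMod N)ˣ) : ∃ γ : Gamma0 N, unitD N γ = a := by
  have hc : IsCoprime ((a : ZMod N).val : ℤ) (N : ℤ) :=
    Nat.isCoprime_iff_coprime.mpr (ZMod.val_coe_unit_coprime a)
  obtain ⟨x, y, hxy⟩ := hc
  let M : Matrix (Fin 2) (Fin 2) ℤ := !![x, -y; (N : ℤ), ((a : ZMod N).val : ℤ)]
  have hdet : M.det = 1 := by rw [Matrix.det_fin_two_of]; linear_combination hxy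
  have hmem : (⟨M, hdet⟩ : SL(2, ℤ)) ∈ Gamma0 N := Gamma0_mem.mpr (by simp [M])
  refine ⟨⟨⟨M, hdet⟩, hmem⟩, Units.ext ?_⟩
  simp [coe_unitD, M]

theorem unitD_mem_of_mem (h : γ ∈ GammaH N H) :
    unitD N ⟨γ, GammaH_le_Gamma0 h⟩ ∈ H := (mem_GammaH.mp h).2

theorem mem_GammaH_of_unitD (γ : Gamma0 N) (h : unitD N γ ∈ H) : (γ : SL(2, ℤ)) ∈ GammaH N H :=
  mem_GammaH.mpr ⟨γ.2, h⟩

theorem conj_mem_GammaH (hδ : δ ∈ Gamma0 N) (h : γ ∈ GammaH N H) :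
    δ * γ * δ⁻¹ ∈ GammaH N H := by
  obtain ⟨h0, hu⟩ := mem_GammaH.mp h
  let x : Gamma0 N := ⟨δ, hδ⟩ * ⟨γ, h0⟩ * ⟨δ, hδ⟩⁻¹
  have hx : (x : SL(2, ℤ)) = δ * γ * δ⁻¹ := by simp only [x, Subgroup.coe_mul, Subgroup.coe_inv]
  rw [← hx]
  refine mem_GammaH_of_unitD x ?_
  rwa [map_mul, map_mul, map_inv, mul_comm, inv_mul_cancel_left]

theorem eq_mul_of_unitD_eq (γ δ : Gamma0 N) (h : unitD N γ = unitD N δ) :
    ∃ g : GammaH N H, (γ : SL(2, ℤ)) = (g : SL(2, ℤ)) * (δ : SL(2, ℤ)) := by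
  refine ⟨⟨_, mem_GammaH_of_unitD (γ * δ⁻¹) ?_⟩, ?_⟩
  · rw [map_mul, map_inv, h, mul_inv_cancel]
    exact one_mem _
  · simp

end Fermat.Agent.GammaH
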