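import Mathlib
import Fermat.Agent.GammaH.Group
import Fermat.Agent.Dimension.EvalMatrix

/-!
# `Γ_H(N)`-forms separate the translates of every point

Sums of Eisenstein series of level `N` over an `H`-orbit of primitive vectors do the job: for a
fixed `τ`, the power sums `∑ w(v) (vτ)^(-k)`, `k ≥ 3`, determine the finitely valued weights `w`.
-/

set_option autoImplicit false

open UpperHalfPlane Filter Matrix CongruenceSubgroup EisensteinSeries
open scoped Topology Manifold ModularForm MatrixGroups Classical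

noncomputable section

namespace Fermat.Agent.GammaH

/-- A finite exponential sum on the unit circle tending to zero is trivial. -/
theorem coeff_eq_zero_of_tendsto {ι : Type*} (s : Finset ι) (u c : ι → ℂ)
    (hu : ∀ i ∈ s, ‖u i‖ = 1) (hinj : Set.InjOn u s)
    (h : Tendsto (fun n : ℕ ↦ ∑ i ∈ s, c i * u i ^ n) atTop (𝓝 0)) {a : ι} (ha : a ∈ s) :
    c a = 0 := by
  set P : Polynomial ℂ := ∏ i ∈ s.erase a, (Polynomial.X - Polynomial.C (u i)) with hP
  have hPa : P.eval (u a) ≠ 0 := by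
    rw [hP, Polynomial.eval_prod, Finset.prod_ne_zero_iff]
    intro i hi
    obtain ⟨hne, his⟩ := Finset.mem_erase.mp hi
    simp only [Polynomial.eval_sub, Polynomial.eval_X, Polynomial.eval_C, sub_ne_zero]
    exact fun he ↦ hne (hinj his ha he.symm)
  have hsum : ∀ n : ℕ, ∑ l ∈ Finset.range (P.natDegree + 1),
      P.coeff l * ∑ i ∈ s, c i * u i ^ (n + l) = c a * u a ^ n * P.eval (u a) := by
    intro n
    calc _ = ∑ i ∈ s, c i * u i ^ n * P.eval (u i) := by
          simp only [Finset.mul_sum, Polynomial.eval_eq_sum_range, pow_add]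
          rw [Finset.sum_comm]
          exact Finset.sum_congr rfl fun i _ ↦ Finset.sum_congr rfl fun l _ ↦ by ring
      _ = c a * u a ^ n * P.eval (u a) := by
          refine Finset.sum_eq_single_of_mem a ha fun i his hne ↦ ?_
          rw [hP, Polynomial.eval_prod,
            Finset.prod_eq_zero (Finset.mem_erase.mpr ⟨hne, his⟩) (by simp), mul_zero]
  have hlim : Tendsto (fun n : ℕ ↦ c a * u a ^ n * P.eval (u a)) atTop (𝓝 0) := by
    simp only [← hsum]
    have : Tendsto (fun n : ℕ ↦ ∑ l ∈ Finset.range (P.natDegree + 1),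
        P.coeff l * ∑ i ∈ s, c i * u i ^ (n + l)) atTop
        (𝓝 (∑ l ∈ Finset.range (P.natDegree + 1), P.coeff l * 0)) :=
      tendsto_finsetSum _ fun l _ ↦ (h.comp (tendsto_add_atTop_nat l)).const_mul _
    simpa using this
  have hn : Tendsto (fun _ : ℕ ↦ ‖c a * P.eval (u a)‖) atTop (𝓝 0) := by
    have := hlim.norm
    simpa [hu a ha] using this
  have := tendsto_nhds_unique hn tendsto_const_nhds
  exact (mul_eq_zero.mp (norm_eq_zero.mp this.symm)).resolve_right hPa

/-- Power sums determine integral weights. -/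
theorem eq_zero_of_forall_tsum_eq_zero {V : Type*} (w y : V → ℂ)
    (hint : ∀ v, w v = 0 ∨ 1 ≤ ‖w v‖) (hy : ∀ v, w v ≠ 0 → y v ≠ 0)
    (hinj : Set.InjOn y {v | w v ≠ 0}) (hsum : Summable fun v ↦ ‖w v * y v ^ 3‖)
    (h : ∀ k : ℕ, 3 ≤ k → ∑' v, w v * y v ^ k = 0) : w = 0 := by
  by_contra hne
  obtain ⟨v₁, hv₁⟩ : ∃ v, w v ≠ 0 := by
    by_contra! h0
    exact hne (funext h0)
  have hfin : ∀ ε : ℝ, 0 < ε → {v | w v ≠ 0 ∧ ε ≤ ‖y v‖}.Finite := by
    intro ε hε
    have := hsum.tendsto_cofinite_zero.eventually_lt_const (pow_pos hε 3)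
    rw [eventually_cofinite] at this
    refine this.subset fun v hv ↦ ?_
    simp only [Set.mem_ofPred_eq, not_lt, norm_mul, norm_pow] at hv ⊢
    calc ε ^ 3 ≤ 1 * ‖y v‖ ^ 3 := by
          rw [one_mul]; exact pow_le_pow_left₀ hε.le hv.2 3
      _ ≤ ‖w v‖ * ‖y v‖ ^ 3 := by
          gcongr
          exact (hint v).resolve_left hv.1
  have hpos : 0 < ‖y v₁‖ := norm_pos_iff.mpr (hy _ hv₁)
  obtain ⟨v₀, hv₀, hmax⟩ := (hfin _ hpos).toFinset.exists_max_image (fun v ↦ ‖y v‖)
    ⟨v₁, by simp [hv₁]⟩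
  simp only [Set.Finite.mem_toFinset, Set.mem_ofPred_eq] at hv₀ hmax
  set R := ‖y v₀‖ with hR
  have hRpos : 0 < R := hpos.trans_le hv₀.2
  have hle : ∀ v, w v ≠ 0 → ‖y v‖ ≤ R := fun v hv ↦ by
    rcases le_or_gt ‖y v₁‖ ‖y v‖ with h' | h'
    · exact hmax v ⟨hv, h'⟩
    · exact h'.le.trans hv₀.2
  set F : Finset V := (hfin R hRpos).toFinset with hF
  have hFnorm : ∀ v ∈ F, w v ≠ 0 ∧ ‖y v‖ = R := fun v hv ↦ by
    simp only [hF, Set.Finite.mem_toFinset, Set.mem_ofPred_eq] at hv
    exact ⟨hv.1, le_antisymm (hle v hv.1) hv.2⟩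
  have hnotF : ∀ v, v ∉ F → w v ≠ 0 → ‖y v‖ < R := fun v hv hw ↦ by
    simp only [hF, Set.Finite.mem_toFinset, Set.mem_ofPred_eq, not_and, not_le] at hv
    exact hv hw
  set u : V → ℂ := fun v ↦ y v / (R : ℂ) with hu
  set f : ℕ → V → ℂ := fun n v ↦ if v ∈ F then 0 else w v * u v ^ (n + 3) with hf
  have hun : ∀ v, w v ≠ 0 → ‖u v‖ ≤ 1 := fun v hv ↦ by
    rw [hu]
    simp only [norm_div, Complex.norm_real, Real.norm_eq_abs, abs_of_pos hRpos]
    rw [div_le_one hRpos]
    exact hle v hv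
  set bound : V → ℝ := fun v ↦ ‖w v * u v ^ 3‖ with hb
  have hbsum : Summable bound := by
    have : bound = fun v ↦ ‖w v * y v ^ 3‖ * (R ^ 3)⁻¹ := by
      funext v
      simp [hb, hu, abs_of_pos hRpos, div_eq_mul_inv, mul_assoc, mul_pow]
    rw [this]
    exact hsum.mul_right _
  have hbound : ∀ (n : ℕ) (v : V), ‖w v * u v ^ (n + 3)‖ ≤ bound v := by
    intro n v
    rcases eq_or_ne (w v) 0 with h0 | h0
    · simp [hb, h0]
    · rw [pow_add, ← mul_assoc, mul_right_comm, norm_mul, norm_pow (u v) n]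
      exact mul_le_of_le_one_right (norm_nonneg _) (pow_le_one₀ (norm_nonneg _) (hun v h0))
  have htend : Tendsto (fun n ↦ ∑' v, f n v) atTop (𝓝 (∑' _v : V, (0 : ℂ))) := by
    refine tendsto_tsum_of_dominated_convergence hbsum (fun v ↦ ?_) ?_
    · by_cases hv : v ∈ F
      · simp [hf, hv]
      · simp only [hf, hv, if_false]
        rcases eq_or_ne (w v) 0 with h0 | h0
        · simp [h0]
        · have hlt : ‖u v‖ < 1 := by
            rw [hu]
            simp only [norm_div, Complex.norm_real, Real.norm_eq_abs, abs_of_pos hRpos]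
            rw [div_lt_one hRpos]
            exact hnotF v hv h0
          simpa using (((tendsto_pow_atTop_nhds_zero_of_norm_lt_one hlt).comp
            (tendsto_add_atTop_nat 3)).const_mul (w v))
    · refine Eventually.of_forall fun n v ↦ ?_
      by_cases hv : v ∈ F
      · simp [hf, hv, hb]
        positivity
      · simp only [hf, hv, if_false]
        exact hbound n v
  have hsplit : ∀ n : ℕ, ∑' v, f n v = -∑ v ∈ F, (w v * u v ^ 3) * u v ^ n := by
    intro n
    have hs : Summable fun v ↦ w v * u v ^ (n + 3) :=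
      Summable.of_norm_bounded hbsum (hbound n)
    have h1 : HasSum (fun v ↦ if v ∈ F then w v * u v ^ (n + 3) else 0)
        (∑ v ∈ F, w v * u v ^ (n + 3)) := by
      convert hasSum_sum_of_ne_finset_zero (L := SummationFilter.unconditional V)
        (f := fun v ↦ if v ∈ F then w v * u v ^ (n + 3) else 0) (s := F)
        (fun v hv ↦ if_neg hv) using 1
      exact Finset.sum_congr rfl fun v hv ↦ (if_pos hv).symm
    have h0 : ∑' v, w v * u v ^ (n + 3) = 0 := by
      simp only [hu, div_pow, ← mul_div_assoc]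
      rw [tsum_div_const, h (n + 3) (by omega), zero_div]
    have h2 := hs.hasSum.sub h1
    rw [h0, zero_sub] at h2
    have h3 : (fun v ↦ w v * u v ^ (n + 3) - if v ∈ F then w v * u v ^ (n + 3) else 0) = f n := by
      funext v
      by_cases hv : v ∈ F <;> simp [hf, hv]
    rw [h3] at h2
    rw [h2.tsum_eq]
    exact congrArg _ (Finset.sum_congr rfl fun v _ ↦ by ring)
  simp only [hsplit, tsum_zero] at htend
  have hlim : Tendsto (fun n : ℕ ↦ ∑ v ∈ F, (w v * u v ^ 3) * u v ^ n) atTop (𝓝 0) := by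
    simpa using htend.neg
  have hu1 : ∀ v ∈ F, ‖u v‖ = 1 := fun v hv ↦ by
    rw [hu]
    simp only [norm_div, Complex.norm_real, Real.norm_eq_abs, abs_of_pos hRpos, (hFnorm v hv).2]
    exact div_self hRpos.ne'
  have hv₀F : v₀ ∈ F := by simp [hF, hv₀.1, hR]
  have hinjF : Set.InjOn u F := fun a ha b hb he ↦
    hinj (hFnorm a ha).1 (hFnorm b hb).1
      ((div_left_inj' (by exact_mod_cast hRpos.ne')).mp he)
  have := coeff_eq_zero_of_tendsto F u (fun v ↦ w v * u v ^ 3) hu1 hinjF hlim hv₀F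
  refine (mul_ne_zero hv₀.1 (pow_ne_zero _ ?_)) this
  intro h0
  simpa [h0] using hu1 v₀ hv₀F

variable {N : ℕ} [NeZero N] {H : Subgroup (ZMod N)ˣ}

/-- The bottom row of a matrix modulo `N`. -/
def botRow (N : ℕ) (g : SL(2, ℤ)) : Fin 2 → ZMod N := fun i ↦ (g 1 i : ZMod N)

/-- The vector `(0, 1)`. -/
def baseVec (N : ℕ) : Fin 2 → ZMod N := ![0, 1]

/-- Number of `u ∈ H` with `v ≡ u • a`. -/
def weightCount (H : Subgroup (ZMod N)ˣ) (a : Fin 2 → ZMod N) (v : Fin 2 → ℤ) : ℕ :=
  (Finset.univ.filter fun u : H ↦ v ∈ gammaSet N 1 ((u : (ZMod N)ˣ) • a)).card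

/-- The sum of the Eisenstein series over an `H`-orbit of congruence conditions. -/
def orbitEis (H : Subgroup (ZMod N)ˣ) (a : Fin 2 → ZMod N) (k : ℤ) : ℍ → ℂ :=
  ∑ u : H, eisensteinSeries ((u : (ZMod N)ˣ) • a) k

theorem orbitEis_slash (a : Fin 2 → ZMod N) (k : ℤ) (g : SL(2, ℤ)) :
    orbitEis H a k ∣[k] g
      = orbitEis H (a ᵥ* (Matrix.SpecialLinearGroup.map (Int.castRingHom (ZMod N)) g).1) k := by
  simp only [orbitEis, SlashAction.sum_slash, eisensteinSeries_slash_apply]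
  refine Finset.sum_congr rfl fun u _ ↦ ?_
  congr 1
  rw [Units.smul_def, Units.smul_def, Matrix.smul_vecMul]

omit [NeZero N] in
theorem baseVec_vecMul (g : SL(2, ℤ)) :
    baseVec N ᵥ* (Matrix.SpecialLinearGroup.map (Int.castRingHom (ZMod N)) g).1 = botRow N g := by
  funext i
  simp [baseVec, botRow, Matrix.vecMul, dotProduct, Fin.sum_univ_two]

theorem orbitEis_apply (a : Fin 2 → ZMod N) {k : ℕ} (hk : 3 ≤ k) (τ : ℍ) :
    orbitEis H a k τ
      = ∑' v : Fin 2 → ℤ, (weightCount H a v : ℂ) * (((v 0 : ℂ) * τ + v 1)⁻¹) ^ k := by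
  have hs : Summable fun v : Fin 2 → ℤ ↦ eisSummand k v τ :=
    (summable_norm_eisSummand (by exact_mod_cast hk) τ).of_norm
  simp only [orbitEis, Finset.sum_apply, eisensteinSeries]
  have e : ∀ u : H, ∑' x : gammaSet N 1 ((u : (ZMod N)ˣ) • a), eisSummand k x τ
      = ∑' v : Fin 2 → ℤ, (gammaSet N 1 ((u : (ZMod N)ˣ) • a)).indicator
          (fun v ↦ eisSummand k v τ) v := fun u ↦
    _root_.tsum_subtype (gammaSet N 1 ((u : (ZMod N)ˣ) • a)) (fun v ↦ eisSummand k v τ)
  simp only [e]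
  rw [← Summable.tsum_finsetSum fun u _ ↦ hs.indicator _]
  refine tsum_congr fun v ↦ ?_
  simp only [Set.indicator_apply, ← Finset.sum_filter, Finset.sum_const, nsmul_eq_mul,
    weightCount]
  congr 1
  simp [eisSummand, _root_.zpow_neg, inv_pow]

theorem orbitEis_mem_forms {k : ℤ} (hk : 3 ≤ k) :
    orbitEis H (baseVec N) k ∈ Dimension.forms (GammaH N H) false k := by
  refine ⟨?_, fun γ hγ ↦ ?_, fun g ↦ ?_⟩
  · exact MDifferentiable.sum fun u _ ↦ eisensteinSeriesSIF_mdifferentiable hk _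
  · rw [orbitEis_slash, baseVec_vecMul]
    obtain ⟨h0, a, ha, hd⟩ := mem_GammaH'.mp hγ
    have hrow : botRow N γ = a • baseVec N := by
      funext i
      fin_cases i <;> simp [botRow, baseVec, h0, hd, Units.smul_def]
    rw [hrow]
    simp only [orbitEis, smul_smul]
    exact Equiv.sum_comp (Equiv.mulRight (⟨a, ha⟩ : H))
      (fun u : H ↦ eisensteinSeries ((u : (ZMod N)ˣ) • baseVec N) k)
  · show IsBoundedAtImInfty (orbitEis H (baseVec N) k ∣[k] g)
    simp only [orbitEis, SlashAction.sum_slash]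
    exact Finset.sum_induction _ IsBoundedAtImInfty (fun _ _ h h' ↦ h.add h')
      zero_form_isBoundedAtImInfty
      fun u _ ↦ isBoundedAtImInfty_eisensteinSeriesSIF _ hk g

omit [NeZero N] in
theorem exists_separating_form [NeZero N] (g g' : SL(2, ℤ)) (τ : ℍ)
    (hne : ¬ g' * g⁻¹ ∈ GammaH N H) :
    ∃ k : ℕ, 3 ≤ k ∧
      (orbitEis H (baseVec N) k ∣[(k : ℤ)] g) τ ≠ (orbitEis H (baseVec N) k ∣[(k : ℤ)] g') τ := by
  by_contra! hall
  set y : (Fin 2 → ℤ) → ℂ := fun v ↦ ((v 0 : ℂ) * τ + v 1)⁻¹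
  set w : (Fin 2 → ℤ) → ℂ := fun v ↦
    (weightCount H (botRow N g) v : ℂ) - (weightCount H (botRow N g') v : ℂ) with hw
  have hzero : ∀ v : Fin 2 → ℤ, v 0 = 0 → v 1 = 0 → ∀ a, weightCount H a v = 0 := by
    intro v h0 h1 a
    rw [weightCount, Finset.card_eq_zero, Finset.filter_eq_empty_iff]
    intro u _ hu
    simpa [h0, h1] using hu.2
  have hne0 : ∀ v, w v ≠ 0 → (v 0 : ℂ) * τ + v 1 ≠ 0 := by
    intro v hv he
    have him := congrArg Complex.im he
    simp at him
    have hre := congrArg Complex.re he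
    rcases him with him | him
    · simp [him] at hre
      exact hv (by simp [hw, hzero v him hre])
    · exact τ.im_ne_zero him
  have hinj : Set.InjOn y {v | w v ≠ 0} := by
    intro v _ v' _ he
    have he' := inv_injective he
    have him := congrArg Complex.im he'
    simp at him
    have h0 : v 0 = v' 0 := by
      rcases him with him | him
      · exact him
      · exact absurd him τ.im_ne_zero
    have hre := congrArg Complex.re he'
    simp [h0] at hre
    funext i
    fin_cases i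
    · exact h0
    · exact hre
  have hint : ∀ v, w v = 0 ∨ 1 ≤ ‖w v‖ := by
    intro v
    rcases eq_or_ne ((weightCount H (botRow N g) v : ℤ) - weightCount H (botRow N g') v) 0
      with h | h
    · left
      have := congrArg (Int.cast : ℤ → ℂ) h
      simpa [hw] using this
    · right
      have : w v =
          (((weightCount H (botRow N g) v : ℤ) - weightCount H (botRow N g') v : ℤ) : ℂ) := by
        simp [hw]
      rw [this, Complex.norm_intCast]
      exact_mod_cast Int.one_le_abs h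
  have hwle : ∀ a v, (weightCount H a v : ℝ) ≤ Fintype.card H := fun a v ↦ by
    exact_mod_cast Finset.card_le_univ _
  have hsumk : ∀ k : ℕ, 3 ≤ k → ∀ a,
      Summable fun v ↦ ‖(weightCount H a v : ℂ) * y v ^ k‖ := by
    intro k hk a
    refine Summable.of_nonneg_of_le (fun _ ↦ norm_nonneg _) (fun v ↦ ?_)
      ((summable_norm_eisSummand (k := (k : ℤ)) (by exact_mod_cast hk) τ).mul_left
        (Fintype.card H : ℝ))
    rw [norm_mul, Complex.norm_natCast]
    refine mul_le_mul (hwle a v) ?_ (norm_nonneg _) (Nat.cast_nonneg _)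
    simp [eisSummand, y, _root_.zpow_neg, inv_pow]
  have hsum : Summable fun v ↦ ‖w v * y v ^ 3‖ := by
    refine Summable.of_nonneg_of_le (fun _ ↦ norm_nonneg _) (fun v ↦ ?_)
      ((hsumk 3 le_rfl (botRow N g)).add (hsumk 3 le_rfl (botRow N g')))
    rw [hw, sub_mul]
    exact norm_sub_le _ _
  have hk : ∀ k : ℕ, 3 ≤ k → ∑' v, w v * y v ^ k = 0 := by
    intro k hk
    simp only [hw, sub_mul]
    rw [Summable.tsum_sub (hsumk k hk _).of_norm (hsumk k hk _).of_norm, sub_eq_zero]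
    have := hall k hk
    rwa [orbitEis_slash, orbitEis_slash, baseVec_vecMul, baseVec_vecMul, orbitEis_apply _ hk,
      orbitEis_apply _ hk] at this
  have hw0 := congrFun (eq_zero_of_forall_tsum_eq_zero w y hint
    (fun v hv ↦ inv_ne_zero (hne0 v hv)) hinj hsum hk) (fun i ↦ g 1 i)
  have hpos : 0 < weightCount H (botRow N g) (fun i ↦ g 1 i) := by
    refine Finset.card_pos.mpr ⟨1, ?_⟩
    simp only [Finset.mem_filter, Finset.mem_univ, true_and, OneMemClass.coe_one, one_smul]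
    refine ⟨rfl, ?_⟩
    exact Int.isCoprime_iff_gcd_eq_one.mp (ModularGroup.bottom_row_coprime g)
  have hzero' : weightCount H (botRow N g') (fun i ↦ g 1 i) = 0 := by
    rw [weightCount, Finset.card_eq_zero, Finset.filter_eq_empty_iff]
    intro u _ hu
    refine hne ?_
    have hrow : botRow N g = (u : (ZMod N)ˣ) • botRow N g' := hu.1
    have h0 := congrFun hrow 0
    have h1 := congrFun hrow 1
    simp [botRow, Units.smul_def] at h0 h1
    have hdet : (g 0 0 : ℤ) * g 1 1 - g 0 1 * g 1 0 = 1 := by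
      have := g.2
      rwa [Matrix.det_fin_two] at this
    have hdet' : (g 0 0 : ZMod N) * g 1 1 - g 0 1 * g 1 0 = 1 := by
      exact_mod_cast congrArg (Int.cast : ℤ → ZMod N) hdet
    have huv : ((↑(u : (ZMod N)ˣ)⁻¹ : ZMod N)) * ((u : (ZMod N)ˣ) : ZMod N) = 1 := Units.inv_mul _
    refine mem_GammaH'.mpr ⟨?_, (u : (ZMod N)ˣ)⁻¹, inv_mem u.2, ?_⟩
    · simp [Matrix.SpecialLinearGroup.coe_mul, Matrix.SpecialLinearGroup.coe_inv,
        Matrix.adjugate_fin_two, Matrix.mul_apply, Fin.sum_univ_two]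
      linear_combination ((↑(u : (ZMod N)ˣ)⁻¹ : ZMod N)) * (g 1 1 : ZMod N) * (-h0)
        + ((↑(u : (ZMod N)ˣ)⁻¹ : ZMod N)) * (g 1 0 : ZMod N) * h1
        - ((g' 1 0 : ZMod N) * (g 1 1 : ZMod N) - (g' 1 1 : ZMod N) * (g 1 0 : ZMod N)) * huv
    · simp [Matrix.SpecialLinearGroup.coe_mul, Matrix.SpecialLinearGroup.coe_inv,
        Matrix.adjugate_fin_two, Matrix.mul_apply, Fin.sum_univ_two]
      linear_combination ((↑(u : (ZMod N)ˣ)⁻¹ : ZMod N)) * (g 0 1 : ZMod N) * h0
        - ((↑(u : (ZMod N)ˣ)⁻¹ : ZMod N)) * (g 0 0 : ZMod N) * h1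
        - ((g' 1 1 : ZMod N) * (g 0 0 : ZMod N) - (g' 1 0 : ZMod N) * (g 0 1 : ZMod N)) * huv
        + ((↑(u : (ZMod N)ˣ)⁻¹ : ZMod N)) * hdet'
  simp [hw, hzero'] at hw0
  omega

/-- `Γ_H(N)`-forms separate. -/
theorem separates_GammaH (N : ℕ) [NeZero N] (H : Subgroup (ZMod N)ˣ) :
    Dimension.Separates (GammaH N H) false := by
  intro τ
  have : Fintype (Dimension.Coset (GammaH N H)) := Fintype.ofFinite _
  set S : Set (Dimension.Coset (GammaH N H) → ℂ) := {v | ∃ (k : ℤ) (f : ℍ → ℂ),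
    f ∈ Dimension.forms (GammaH N H) false k ∧ v = fun c ↦ Dimension.trans (GammaH N H) k c f τ}
  have hone : (1 : Dimension.Coset (GammaH N H) → ℂ) ∈ S := by
    obtain ⟨h1, h2, h3⟩ := Dimension.one_mem_L
    refine ⟨0, 1, ⟨h1, fun γ _ ↦ h2 γ (Subgroup.mem_top _), h3⟩, ?_⟩
    funext c
    simp [Dimension.trans, ModularForm.is_invariant_one]
  have hmul : ∀ {v w}, v ∈ S → w ∈ S → v * w ∈ S := by
    rintro v w ⟨k, f, hf, rfl⟩ ⟨l, f', hf', rfl⟩
    refine ⟨k + l, f * f', ⟨hf.1.mul hf'.1, fun γ hγ ↦ ?_, fun g ↦ ?_⟩, ?_⟩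
    · rw [ModularForm.mul_slash_SL2, hf.2.1 γ hγ, hf'.2.1 γ hγ]
    · rw [ModularForm.mul_slash_SL2]; exact (hf.2.2 g).mul_bounded (hf'.2.2 g).bounded
    · funext c
      simp [Dimension.trans, ModularForm.mul_slash_SL2]
  have hclosed : ∀ v ∈ Submodule.span ℂ S, ∀ w ∈ Submodule.span ℂ S,
      v * w ∈ Submodule.span ℂ S := by
    intro v hv w hw
    have := Submodule.mul_mem_mul hv hw
    rw [Submodule.span_mul_span] at this
    exact Submodule.span_mono (Set.mul_subset_iff.mpr fun _ ha _ hb ↦ hmul ha hb) this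
  have hsep : ∀ c c' : Dimension.Coset (GammaH N H), c ≠ c' → ∃ v ∈ S, v c ≠ v c' := by
    intro c c' hne
    obtain ⟨k, hk, hkne⟩ := exists_separating_form (H := H) (Quotient.out c)⁻¹
      (Quotient.out c')⁻¹ τ (by
        rw [inv_inv]
        intro hmem
        refine hne ?_
        rw [← QuotientGroup.out_eq' c, ← QuotientGroup.out_eq' c', QuotientGroup.eq]
        simpa using inv_mem hmem)
    exact ⟨_, ⟨k, _, orbitEis_mem_forms (by exact_mod_cast hk), rfl⟩, hkne⟩
  refine eq_top_iff.mpr fun v _ ↦ ?_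
  have hind : ∀ c, (Pi.single c 1 : Dimension.Coset (GammaH N H) → ℂ) ∈ Submodule.span ℂ S := by
    intro c
    have hfac : ∀ c', c' ≠ c → ∃ u ∈ Submodule.span ℂ S, u c = 1 ∧ u c' = 0 := fun c' hc' ↦ by
      obtain ⟨w, hw, hne⟩ := hsep c c' hc'.symm
      refine ⟨(w c - w c')⁻¹ • (w - w c' • 1), Submodule.smul_mem _ _ (sub_mem
        (Submodule.subset_span hw) (Submodule.smul_mem _ _ (Submodule.subset_span hone))), ?_, ?_⟩
      · simp [sub_ne_zero.mpr hne]
      · simp
    choose u hu hu1 hu0 using hfac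
    have heq : (Pi.single c 1 : Dimension.Coset (GammaH N H) → ℂ) =
        ∏ c' : {c' // c' ≠ c}, u c'.1 c'.2 := by
      funext x
      rw [Finset.prod_apply]
      rcases eq_or_ne x c with rfl | hx
      · simp [hu1]
      · rw [Pi.single_eq_of_ne hx]
        exact (Finset.prod_eq_zero (Finset.mem_univ (⟨x, hx⟩ : {c' // c' ≠ c})) (hu0 x hx)).symm
    rw [heq]
    exact Finset.prod_induction _ (· ∈ Submodule.span ℂ S) (fun a b ha hb ↦ hclosed a ha b hb)
      (Submodule.subset_span hone) fun c' _ ↦ hu _ _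
  rw [pi_eq_sum_univ' v]
  exact sum_mem fun c _ ↦ Submodule.smul_mem _ _ (by simpa [Pi.single_apply, eq_comm] using hind c)

end Fermat.Agent.GammaH
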