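import Fermat.Agent.GammaH.Group
import Fermat.Agent.GammaH.Periods
import Fermat.Agent.GammaH.Separation
import Fermat.Agent.Cosets.ParabolicRank
import Fermat.Agent.Dimension.Count

/-!
# Parabolic cohomology of `Γ_H(N)` has rank twice the dimension of `S₂`

For a finite index `Γ ∋ -1` with separating forms, the first Betti number of the coset surface
equals `2 · dim S₂(Γ)`: both are given by the same count of `S`, `ST` and `T` orbits.
-/

set_option autoImplicit false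

open scoped MatrixGroups
open UpperHalfPlane Fermat.Agent.Cosets Fermat.Agent.Cosets.Presentation
  Fermat.Agent.Cosets.Cocycle ModularGroup CongruenceSubgroup

namespace Fermat.Agent.GammaH

noncomputable section

section General

variable {Γ : Subgroup SL(2, ℤ)}

theorem trivNegOne_coset (hneg : (-1 : SL(2, ℤ)) ∈ Γ) : TrivNegOne (SL(2, ℤ) ⧸ Γ) := by
  intro x
  induction x using QuotientGroup.induction_on with
  | _ g =>
    show ((( -1 : SL(2, ℤ)) * g : SL(2, ℤ)) : SL(2, ℤ) ⧸ Γ) = (g : SL(2, ℤ) ⧸ Γ)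
    rw [QuotientGroup.eq]
    simpa using hneg

theorem card_matU_orbits' (Γ : Subgroup SL(2, ℤ)) :
    Nat.card (Quotient (Equiv.Perm.SameCycle.setoid (permU (SL(2, ℤ) ⧸ Γ))))
      = Nat.card (MulAction.orbitRel.Quotient (Subgroup.zpowers (S * T : SL(2, ℤ)))
          (SL(2, ℤ) ⧸ Γ)) := by
  refine Eq.trans ?_ (Nat.card_congr (sameCycleEquivOrbits (X := SL(2, ℤ) ⧸ Γ)
    (S * T : SL(2, ℤ))))
  refine Nat.card_congr (Quotient.congr (MulAction.toPerm (T : SL(2, ℤ))) fun a b => ?_).symm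
  show Equiv.Perm.SameCycle _ a b ↔ Equiv.Perm.SameCycle _ _ _
  have key : permU (SL(2, ℤ) ⧸ Γ)
      = MulAction.toPerm (T : SL(2, ℤ)) * MulAction.toPerm (S * T : SL(2, ℤ))
        * (MulAction.toPerm (T : SL(2, ℤ)))⁻¹ := by
    ext x
    show matU • x = T • (S * T) • T⁻¹ • x
    rw [matU_def, ← mul_smul, ← mul_smul]
    congr 1
    group
  rw [key, Equiv.Perm.sameCycle_conj]
  simp

/-- The rank of the lattice of parabolic homomorphisms of `Γ`. -/
def homRankOf (Γ : Subgroup SL(2, ℤ)) [Γ.FiniteIndex] : ℕ :=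
  letI := Fintype.ofFinite (SL(2, ℤ) ⧸ Γ)
  surfaceRank (SL(2, ℤ) ⧸ Γ)

variable [Γ.FiniteIndex]

/-- The parabolic rank is twice the dimension of the space of weight two cusp forms. -/
theorem homRankOf_eq (hneg : (-1 : SL(2, ℤ)) ∈ Γ) (hsep : Dimension.Separates Γ false) :
    homRankOf Γ = 2 * Module.finrank ℂ (CuspForm (Γ : Subgroup (GL (Fin 2) ℝ)) 2) := by
  let := Fintype.ofFinite (SL(2, ℤ) ⧸ Γ)
  have htriv := trivNegOne_coset hneg
  obtain ⟨i, p, h₀, h₁, hcount, -⟩ := surfaceRank_spec (SL(2, ℤ) ⧸ Γ)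
  rw [← Nat.card_eq_fintype_card, ← Nat.card_eq_fintype_card, ← Nat.card_eq_fintype_card,
    Nat.card_sum, card_matU_orbits',
    Nat.card_congr (sameCycleEquivOrbits (X := SL(2, ℤ) ⧸ Γ) (S : SL(2, ℤ)))] at hcount
  have hF : Nat.card (Graph.Face (permS (SL(2, ℤ) ⧸ Γ)) (permU (SL(2, ℤ) ⧸ Γ)))
      = Nat.card (Dimension.Cusps Γ) := by
    rw [Graph.Face, permU_mul_permS_eq htriv,
      Nat.card_congr (sameCycleEquivOrbits (X := SL(2, ℤ) ⧸ Γ) (T : SL(2, ℤ)))]
    show _ = Nat.card (MulAction.orbitRel.Quotient (Subgroup.zpowers (T : SL(2, ℤ))⁻¹) _)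
    rw [Subgroup.zpowers_inv]
    rfl
  have hS := mul_card_orbits_of_prime (X := SL(2, ℤ) ⧸ Γ) (S : SL(2, ℤ)) Nat.prime_two
    fun x ↦ by rw [sq, Presentation.S_mul_S]; exact htriv x
  have hST3 : (S * T : SL(2, ℤ)) ^ 3 = -1 := by decide
  have hST := mul_card_orbits_of_prime (X := SL(2, ℤ) ⧸ Γ) (S * T : SL(2, ℤ)) Nat.prime_three
    fun x ↦ by rw [hST3]; exact htriv x
  have hdim := Dimension.twelve_mul_finrank_cuspForm hneg hsep
  rw [hF] at hcount
  simp only [Dimension.Coset] at hdim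
  change Nat.card (SL(2, ℤ) ⧸ Γ) + 2 = _ + _ + homRankOf Γ at hcount
  have h1 := congrArg (fun n : ℕ ↦ (n : ℂ)) hcount
  have h2 := congrArg (fun n : ℕ ↦ (n : ℂ)) hS
  have h3 := congrArg (fun n : ℕ ↦ (n : ℂ)) hST
  push_cast at h1 h2 h3
  have key : (homRankOf Γ : ℂ)
      = ((2 * Module.finrank ℂ (CuspForm (Γ : Subgroup (GL (Fin 2) ℝ)) 2) : ℕ) : ℂ) := by
    push_cast
    linear_combination (norm := ring1!) -h1 - (1 / 2 : ℂ) * h2 - (1 / 3 : ℂ) * h3
      - (1 / 6 : ℂ) * hdim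
  exact_mod_cast key

/-- An integral basis of the parabolic homomorphisms, valid for every coefficient module. -/
theorem exists_integral_basis_of (hneg : (-1 : SL(2, ℤ)) ∈ Γ) :
    ∃ b : Fin (homRankOf Γ) → parEllHoms ℤ Γ ℤ,
      ∀ (R : Type*) [Semiring R] (A : Type*) [AddCommGroup A] [Module R A],
        ∃ e : (Fin (homRankOf Γ) → A) ≃ₗ[R] parEllHoms R Γ A,
          ∀ a γ, (e a : Additive Γ →+ A) γ = ∑ j, (b j : Additive Γ →+ ℤ) γ • a j :=
  letI := Fintype.ofFinite (SL(2, ℤ) ⧸ Γ)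
  exists_integral_basis (X := SL(2, ℤ) ⧸ Γ) (trivNegOne_coset hneg)
    ((1 : SL(2, ℤ)) : SL(2, ℤ) ⧸ Γ) (MulAction.stabilizer_quotient _)

theorem finrank_parEllHoms_complex (hneg : (-1 : SL(2, ℤ)) ∈ Γ) :
    FiniteDimensional ℂ (parEllHoms ℂ Γ ℂ) ∧
      Module.finrank ℂ (parEllHoms ℂ Γ ℂ) = homRankOf Γ := by
  obtain ⟨b, hb⟩ := exists_integral_basis_of.{0, 0} hneg
  obtain ⟨e, -⟩ := hb ℂ ℂ
  refine ⟨e.finiteDimensional, ?_⟩
  rw [← e.finrank_eq, Module.finrank_fintype_fun_eq_card, Fintype.card_fin]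

instance finiteDimensional_cuspForm (k : ℤ) :
    FiniteDimensional ℂ (CuspForm (Γ : Subgroup (GL (Fin 2) ℝ)) k) :=
  have := Dimension.forms_finite Γ true k
  (Dimension.cuspFormEquiv (Γ := Γ) (k := k)).symm.finiteDimensional

/-- The period pair as a map into the homomorphisms killing elliptic and parabolic elements. -/
def periodPairPE (hJ : JStable Γ) :
    (CuspForm (Γ : Subgroup (GL (Fin 2) ℝ)) 2 × CuspForm (Γ : Subgroup (GL (Fin 2) ℝ)) 2)
      →ₗ[ℂ] parEllHoms ℂ Γ ℂ :=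
  (periodPair hJ).codRestrict _ fun p ↦ by
    rw [← complex_parabolicHoms_eq]
    exact periodPair_mem_parabolicHoms hJ p

theorem periodPairPE_bijective (hJ : JStable Γ) (hneg : (-1 : SL(2, ℤ)) ∈ Γ)
    (hsep : Dimension.Separates Γ false) : Function.Bijective (periodPairPE hJ) := by
  have hinj : Function.Injective (periodPairPE hJ) := fun a b h ↦
    periodPair_injective hJ (congrArg Subtype.val h)
  obtain ⟨hfin, hrank⟩ := finrank_parEllHoms_complex hneg
  refine ⟨hinj, (LinearMap.injective_iff_surjective_of_finrank_eq_finrank ?_).mp hinj⟩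
  rw [Module.finrank_prod, hrank, homRankOf_eq hneg hsep, two_mul]

end General

section GammaH

variable {N : ℕ} [NeZero N] {H : Subgroup (ZMod N)ˣ}

omit [NeZero N] in
theorem jStable_GammaH : JStable (GammaH N H) := by
  intro γ hγ
  obtain ⟨h0, a, ha, hd⟩ := mem_GammaH'.mp hγ
  refine mem_GammaH'.mpr ⟨?_, a, ha, ?_⟩
  · show (((ModularCurve.Period.jConjSL γ : SL(2, ℤ)) : Matrix (Fin 2) (Fin 2) ℤ) 1 0 : ZMod N) = 0
    simp [ModularCurve.Period.jConjSL_coe, ModularCurve.Period.jConjMat, h0]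
  · show (((ModularCurve.Period.jConjSL γ : SL(2, ℤ)) : Matrix (Fin 2) (Fin 2) ℤ) 1 1 : ZMod N) = _
    simp [ModularCurve.Period.jConjSL_coe, ModularCurve.Period.jConjMat, hd]

/-- Weight two cusp forms on `Γ_H(N)`. -/
abbrev S2 (N : ℕ) (H : Subgroup (ZMod N)ˣ) : Type :=
  CuspForm (GammaH N H : Subgroup (GL (Fin 2) ℝ)) 2

/-- Homomorphisms on `Γ_H(N)` killing parabolic and elliptic elements. -/
abbrev H1 (N : ℕ) (H : Subgroup (ZMod N)ˣ) (R A : Type*) [Semiring R] [AddCommGroup A]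
    [Module R A] : Submodule R (Additive (GammaH N H) →+ A) :=
  parEllHoms R (GammaH N H) A

/-- **Eichler–Shimura** for `Γ_H(N)`. -/
def periodIso (hH : (-1 : (ZMod N)ˣ) ∈ H) : (S2 N H × S2 N H) ≃ₗ[ℂ] H1 N H ℂ ℂ :=
  LinearEquiv.ofBijective (periodPairPE jStable_GammaH)
    (periodPairPE_bijective jStable_GammaH (neg_one_mem_GammaH hH) (separates_GammaH N H))

end GammaH

end

end Fermat.Agent.GammaH
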