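import Fermat.Agent.GammaH.Dimension
import Fermat.Agent.Newform.CuspFun

/-!
# Operators on weight two cusp forms given by rational coset families

`slashOp` is intertwined with the transfer by the pair period map (`periodPairPE_slashOp`).
-/

set_option autoImplicit false

noncomputable section

namespace Fermat.Agent.GammaH

open UpperHalfPlane Fermat.Agent.Periods Fermat.Agent.Cosets Fermat.Agent.Newform
open scoped MatrixGroups ModularForm Manifold

variable {Γ : Subgroup SL(2, ℤ)}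

section Cusp

variable [Γ.FiniteIndex] {k : ℤ}

/-- A cusp form vanishes at all rational cusps. -/
theorem isCuspFun_cuspForm (f : CuspForm (Γ : Subgroup (GL (Fin 2) ℝ)) k) : IsCuspFun k ⇑f := by
  refine ⟨CuspFormClass.holo f, fun g => ?_⟩
  rw [← OnePoint.isZeroAt_infty_iff, ← OnePoint.IsZeroAt.smul_iff]
  apply CuspFormClass.zero_at_cusps f
  rw [Subgroup.IsArithmetic.isCusp_iff_isCusp_SL2Z, isCusp_SL2Z_iff]
  exact ⟨g • OnePoint.infty, by rw [← Rat.coe_castHom, OnePoint.map_smul]; rfl⟩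

/-- An invariant function vanishing at all rational cusps is a cusp form. -/
def ofCuspFun {φ : ℍ → ℂ} (hφ : IsCuspFun k φ) (hinv : ∀ γ ∈ Γ, φ ∣[k] γ = φ) :
    CuspForm (Γ : Subgroup (GL (Fin 2) ℝ)) k where
  toFun := φ
  slash_action_eq' := by
    rintro _ ⟨γ, hγ, rfl⟩
    exact hinv γ hγ
  holo' := hφ.holo
  zero_at_cusps' {c} hc := by
    rw [Subgroup.IsArithmetic.isCusp_iff_isCusp_SL2Z] at hc
    rw [OnePoint.isZeroAt_iff_forall_SL2Z hc]
    intro γ _
    rw [ModularForm.SL_slash, qm_SL]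
    exact hφ.zeroAt _

@[simp] theorem coe_ofCuspFun {φ : ℍ → ℂ} (hφ : IsCuspFun k φ)
    (hinv : ∀ γ ∈ Γ, φ ∣[k] γ = φ) : ⇑(ofCuspFun (Γ := Γ) hφ hinv) = φ := rfl

end Cusp

variable {ι : Type*} [Fintype ι] {α : ι → GL (Fin 2) ℝ}

theorem slashSum_invariant (h : IsCosetFamily Γ α) {φ : ℍ → ℂ} {k : ℤ}
    (hφ : ∀ γ ∈ Γ, φ ∣[k] γ = φ) {γ : SL(2, ℤ)} (hγ : γ ∈ Γ) :
    (∑ i, φ ∣[k] α i) ∣[k] γ = ∑ i, φ ∣[k] α i := by
  rw [ModularForm.SL_slash, SlashAction.sum_slash]
  calc ∑ i, (φ ∣[k] α i) ∣[k] (γ : GL (Fin 2) ℝ)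
      = ∑ i, φ ∣[k] α (h.perm ⟨γ, hγ⟩ i) := by
        refine Finset.sum_congr rfl fun i _ ↦ ?_
        rw [← SlashAction.slash_mul]
        show φ ∣[k] (α i * toGLR ((⟨γ, hγ⟩ : Γ) : SL(2, ℤ))) = _
        rw [h.mul_eq, SlashAction.slash_mul]
        congr 1
        exact hφ _ (h.cocycle ⟨γ, hγ⟩ i).2
    _ = _ := Equiv.sum_comp (h.perm ⟨γ, hγ⟩) (fun i ↦ φ ∣[k] α i)

/-- A coset family consisting of rational matrices of positive determinant. -/
structure IsPosRational (α : ι → GL (Fin 2) ℝ) : Prop where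
  det_pos : ∀ i, 0 < (α i).det.val
  rat : ∀ i, ∃ a : GL (Fin 2) ℚ, rgl a = α i

theorem isCuspFun_slashSum (hα : IsPosRational α) {φ : ℍ → ℂ} {k : ℤ} (hφ : IsCuspFun k φ) :
    IsCuspFun k (∑ i, φ ∣[k] α i) :=
  IsCuspFun.sum _ fun i _ ↦ by
    obtain ⟨a, ha⟩ := hα.rat i
    rw [← ha]
    exact hφ.slash_rgl a

variable [Γ.FiniteIndex]

local notation "S₂" => CuspForm (Γ : Subgroup (GL (Fin 2) ℝ)) 2

/-- The operator `f ↦ ∑ f ∣ α i` on weight two cusp forms. -/
def slashOp (h : IsCosetFamily Γ α) (hα : IsPosRational α) : Module.End ℂ S₂ where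
  toFun f := ofCuspFun (φ := ∑ i, (f : ℍ → ℂ) ∣[(2 : ℤ)] α i)
    (isCuspFun_slashSum hα (isCuspFun_cuspForm f))
    fun _ hγ ↦ slashSum_invariant h (fun _ hg ↦ slash_eq_self f hg) hγ
  map_add' f g := DFunLike.coe_injective <| by
    simp [SlashAction.add_slash, Finset.sum_add_distrib]
  map_smul' c f := DFunLike.coe_injective <| by
    simp only [coe_ofCuspFun, FunLike.coe_smul, RingHom.id_apply, Finset.smul_sum]
    exact Finset.sum_congr rfl fun i _ ↦ rgl_smul_slash 2 _ _ c (hα.det_pos i)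

theorem coe_slashOp (h : IsCosetFamily Γ α) (hα : IsPosRational α) (f : S₂) :
    (slashOp h hα f : ℍ → ℂ) = ∑ i, (f : ℍ → ℂ) ∣[(2 : ℤ)] α i := rfl

omit [Γ.FiniteIndex] in
/-- The transfer on homomorphisms killing elliptic and parabolic elements. -/
def transferPE (h : IsCosetFamily Γ α) (R A : Type*) [Semiring R] [AddCommGroup A] [Module R A] :
    Module.End R (parEllHoms R Γ A) :=
  (h.transfer R A).restrict fun _ hφ ↦ h.transfer_isEllParHom hφ

omit [Γ.FiniteIndex] in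
theorem coe_transferPE (h : IsCosetFamily Γ α) {R A : Type*} [Semiring R] [AddCommGroup A]
    [Module R A] (φ : parEllHoms R Γ A) :
    (transferPE h R A φ : Additive Γ →+ A) = h.transfer R A φ := rfl

/-- The pair period map intertwines `slashOp` with the transfer. -/
theorem periodPairPE_slashOp (hJ : JStable Γ) (h : IsCosetFamily Γ α) (hα : IsPosRational α)
    (hαJ : ∀ i, ∃ (j : ι) (β : Γ),
      UpperHalfPlane.J * α i * UpperHalfPlane.J = toGLR β * α j)
    (p : S₂ × S₂) :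
    periodPairPE hJ (slashOp h hα p.1, slashOp h hα p.2) = transferPE h ℂ ℂ (periodPairPE hJ p) :=
  Subtype.ext <| periodPair_eq_transfer hJ h hα.det_pos hαJ (slashOp h hα)
    (fun f ↦ coe_slashOp h hα f) p.1 p.2

end Fermat.Agent.GammaH
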